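/-
helper85, P-ORD block B1-GAL (concrete side, part 1): the Galois action on the Gauss ring
`Fermat.Agent.H66.gaussOBar N A` of `F_L = ℚ̄(X₀(N))` (any level `N`, any valuation subring `A`
of `ℚ̄`).

* `gg_coeffMap_mem_vGaussRing` : an automorphism `σ` of `L` inducing `σ̄` on the residue field
  preserves the Gauss ring of `L((q))` and commutes with the reduction;
* `gg_smul_mem_gaussOBar` : the same on `gaussOBar N A`;
* `gg_dec_gaussOBar`, `gg_inertia_gaussOBar` : the decomposition group preserves `gaussOBar N A`,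
  the inertia group acts trivially on its reduction.
Everything lives in namespace `Fermat.Agent.H85.ORD`.
-/
import Fermat.Agent.H66.ESD.GaussInterfaces
import Fermat.Agent.H72.FF.GeoBlocks
import Fermat.Agent.H77.EsEGalois
import Fermat.Agent.H36.ESE.Assembly

set_option autoImplicit false
set_option synthInstance.maxHeartbeats 400000
set_option linter.unusedSectionVars false

noncomputable section

open AlgebraicCurve ModularCurve
open Fermat.Agent.H66 Fermat.Agent.H36 Fermat.Agent.H77

namespace Fermat.Agent.H85.ORD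

section Gauss

variable {L : Type*} [Field L] [Algebra ℚ L] {A : ValuationSubring L}

/-- An automorphism `σ` of `L` inducing `σ̄` on the residue field of `A` preserves the Gauss ring
of `L((q))` and commutes with the reduction map. -/
theorem gg_coeffMap_mem_vGaussRing (σ : L ≃ₐ[ℚ] L)
    (σbar : IsLocalRing.ResidueField A ≃+* IsLocalRing.ResidueField A)
    (hσ : IsInducedAut A (IsLocalRing.residue A) σ σbar) (x : vGaussRing A) :
    ∃ h : coeffMap (σ : L →+* L) (x : LaurentSeries L) ∈ vGaussRing A,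
      vGaussRed A ⟨_, h⟩ =
        coeffMap (σbar : IsLocalRing.ResidueField A →+* IsLocalRing.ResidueField A)
          (vGaussRed A x) := by
  have hσA : ∀ a : A, σ (a : L) ∈ A := by
    intro a
    obtain ⟨b, hb, -⟩ := hσ a
    rw [← hb]
    exact b.2
  have hπσ : ∀ a : A, IsLocalRing.residue A (esegRestrict A σ hσA a)
      = σbar (IsLocalRing.residue A a) := by
    intro a
    obtain ⟨b, hb, hπb⟩ := hσ a
    have : esegRestrict A σ hσA a = b := Subtype.ext hb.symm
    rw [this, hπb]
  obtain ⟨a, b, hb, hx⟩ := x.2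
  have e1 : ∀ y : LaurentSeries A, vIota A (coeffMap (esegRestrict A σ hσA) y)
      = coeffMap (σ : L →+* L) (vIota A y) := fun y => eseg_coeffMap_subtype_restrict A σ hσA y
  have e2 : ∀ y : LaurentSeries A, vRho A (coeffMap (esegRestrict A σ hσA) y)
      = coeffMap (σbar : IsLocalRing.ResidueField A →+* IsLocalRing.ResidueField A) (vRho A y) :=
    fun y => eseg_coeffMap_pi_restrict A (IsLocalRing.residue A) σ hσA σbar hπσ y
  have hb' : vRho A (coeffMap (esegRestrict A σ hσA) b) ≠ 0 := by
    rw [e2]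
    exact eseg_coeffMap_equiv_ne_zero σbar hb
  have hx' : coeffMap (σ : L →+* L) (x : LaurentSeries L)
      * vIota A (coeffMap (esegRestrict A σ hσA) b)
      = vIota A (coeffMap (esegRestrict A σ hσA) a) := by
    rw [e1, e1, ← map_mul, hx]
  have hmem : coeffMap (σ : L →+* L) (x : LaurentSeries L) ∈ vGaussRing A :=
    ⟨_, _, hb', hx'⟩
  refine ⟨hmem, ?_⟩
  rw [vGaussRed_eq A ⟨_, hmem⟩ _ _ hb' hx', vGaussRed_eq A x a b hb hx, e2, e2, map_div₀]

end Gauss

section Bar

open Fermat.Agent.H72.FF Fermat.Agent.H10.FF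

variable {N : ℕ} {A : ValuationSubring Qb}

/-- An automorphism `σ` of `ℚ̄` inducing `σ̄` on the residue field of `A` preserves the Gauss ring
of `F_L` and commutes with the reduction map. -/
theorem gg_smul_mem_gaussOBar (σ : GQ) (σbar : kRes A ≃+* kRes A)
    (hσ : IsInducedAut A (IsLocalRing.residue A) σ σbar) (u : gaussOBar N A) :
    ∃ h : galF N σ • (u : FLb N) ∈ gaussOBar N A,
      gaussRedBar N A ⟨_, h⟩ = coeffMap (σbar : kRes A →+* kRes A) (gaussRedBar N A u) := by
  obtain ⟨h, e⟩ := gg_coeffMap_mem_vGaussRing σ σbar hσ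
    ⟨((u : FLb N) : LaurentSeries Qb), u.2⟩
  exact ⟨h, e⟩

/-- the decomposition group preserves the Gauss ring of `F_L` -/
theorem gg_dec_gaussOBar (σ : GQ) (hσ : σ ∈ A.decompositionSubgroup ℚ) (u : FLb N)
    (hu : u ∈ gaussOBar N A) : galF N σ • u ∈ gaussOBar N A := by
  obtain ⟨h, -⟩ := gg_smul_mem_gaussOBar (N := N) σ (residueAut (K := ℚ) A ⟨σ, hσ⟩)
    (isInducedAut_residueAut A ⟨σ, hσ⟩) ⟨u, hu⟩
  exact h

/-- the decomposition group acts on the reduction of the Gauss ring of `F_L` through the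
coefficientwise action of the residual automorphism -/
theorem gg_dec_red_gaussOBar (σ : GQ) (hσ : σ ∈ A.decompositionSubgroup ℚ) (u : gaussOBar N A)
    (h : galF N σ • (u : FLb N) ∈ gaussOBar N A) :
    gaussRedBar N A ⟨_, h⟩ =
      coeffMap ((residueAut (K := ℚ) A ⟨σ, hσ⟩ : kRes A ≃+* kRes A) : kRes A →+* kRes A)
        (gaussRedBar N A u) := by
  obtain ⟨h', e⟩ := gg_smul_mem_gaussOBar (N := N) σ (residueAut (K := ℚ) A ⟨σ, hσ⟩)
    (isInducedAut_residueAut A ⟨σ, hσ⟩) u
  exact e

/-- the inertia group is contained in the decomposition group -/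
theorem gg_inertia_le_dec (σ : GQ) (hσ : σ ∈ A.inertiaSubgroupIn ℚ) :
    σ ∈ A.decompositionSubgroup ℚ := by
  obtain ⟨τ, hτ, -⟩ := residueAut_eq_one_of_mem_inertia (A := A) hσ
  rw [← hτ]
  exact τ.2

/-- the inertia group acts trivially on the reduction of the Gauss ring of `F_L` -/
theorem gg_inertia_gaussOBar (σ : GQ) (hσ : σ ∈ A.inertiaSubgroupIn ℚ) (u : gaussOBar N A)
    (h : galF N σ • (u : FLb N) ∈ gaussOBar N A) :
    gaussRedBar N A ⟨_, h⟩ = gaussRedBar N A u := by
  obtain ⟨τ, hτ, h1⟩ := residueAut_eq_one_of_mem_inertia (A := A) hσ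
  subst hτ
  have e := gg_dec_red_gaussOBar (N := N) (τ : GQ) τ.2 u h
  rw [e]
  have h2 : residueAut (K := ℚ) A ⟨(τ : GQ), τ.2⟩ = 1 := h1
  rw [h2]
  have h3 : (((1 : kRes A ≃+* kRes A)) : kRes A →+* kRes A) = RingHom.id (kRes A) := rfl
  rw [h3, coeffMap_id]

end Bar

end Fermat.Agent.H85.ORD

end
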