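/-
helper85, P-ORD block B1-GAL (concrete side, part 2): **an automorphism `W` of
`F_L = ℚ̄(X₀(N))` over `ℚ̄` which maps the generators `j(q^d)`, `d ∣ N`, to Galois-fixed elements
(e.g. to generators: an Atkin-Lehner automorphism) commutes with the coefficientwise Galois
action.**  Hence `V₀ := V_∞.comap W`, `red₀ := red_∞ ∘ W` inherit the Galois properties of
`V_∞`, `red_∞` (`gw_dec_comap`, `gw_red_comap`).
Everything lives in namespace `Fermat.Agent.H85.ORD`.
-/
import Fermat.Agent.H72.FF.GeoBlocks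
import Fermat.Agent.H23.BlueprintMod

set_option autoImplicit false
set_option synthInstance.maxHeartbeats 400000
set_option linter.unusedSectionVars false

noncomputable section

open AlgebraicCurve ModularCurve IntermediateField

namespace Fermat.Agent.H85.ORD

open Fermat.Agent.H72.FF Fermat.Agent.H10.FF

variable {N : ℕ}

/-- the elements on which `W` commutes with `σ` form a subfield -/
def gwSubfield (W : FLb N ≃ₐ[Qb] FLb N) (σ : GQ) : Subfield (FLb N) where
  carrier := {y | W (galF N σ • y) = galF N σ • W y}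
  mul_mem' := by
    intro a b ha hb
    show W (galF N σ • (a * b)) = galF N σ • W (a * b)
    rw [smul_mul', map_mul, map_mul, smul_mul', ha, hb]
  one_mem' := by
    show W (galF N σ • (1 : FLb N)) = galF N σ • W 1
    rw [smul_one, map_one, smul_one]
  add_mem' := by
    intro a b ha hb
    show W (galF N σ • (a + b)) = galF N σ • W (a + b)
    rw [smul_add, map_add, map_add, smul_add, ha, hb]
  zero_mem' := by
    show W (galF N σ • (0 : FLb N)) = galF N σ • W 0
    rw [smul_zero, map_zero, smul_zero]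
  neg_mem' := by
    intro a ha
    show W (galF N σ • (-a)) = galF N σ • W (-a)
    rw [smul_neg, map_neg, map_neg, smul_neg, ha]
  inv_mem' := by
    intro a ha
    show W (galF N σ • a⁻¹) = galF N σ • W a⁻¹
    rw [smul_inv'', map_inv₀, map_inv₀, smul_inv'', ha]

theorem mem_gwSubfield (W : FLb N ≃ₐ[Qb] FLb N) (σ : GQ) (y : FLb N) :
    y ∈ gwSubfield W σ ↔ W (galF N σ • y) = galF N σ • W y := Iff.rfl

theorem gw_const_mem (W : FLb N ≃ₐ[Qb] FLb N) (σ : GQ) (c : Qb) :
    algebraMap Qb (FLb N) c ∈ gwSubfield W σ := by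
  rw [mem_gwSubfield, SemilinearAut.smul_algebraMap, W.commutes, W.commutes,
    SemilinearAut.smul_algebraMap]

/-- rational series are fixed by the Galois action -/
theorem gw_smul_coeffEmb (σ : GQ) (x : LaurentSeries ℚ)
    (hx : coeffEmb Qb x ∈ Fermat.Agent.H18.rvFL Qb N) :
    galF N σ • (⟨coeffEmb Qb x, hx⟩ : FLb N) = ⟨coeffEmb Qb x, hx⟩ := by
  apply Subtype.ext
  rw [coe_arithmeticGalois_smul]
  exact coeffMap_coeffEmb σ x

set_option maxHeartbeats 1000000 in
/-- **`W` commutes with the Galois action**, if it maps the rational generators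
`j(q^d)`, `d ∣ N`, to Galois-fixed elements. -/
theorem gw_comm (W : FLb N ≃ₐ[Qb] FLb N) (σ : GQ)
    (hW : ∀ x (hx : x ∈ divisorExpansions N),
      galF N σ • W ⟨coeffEmb Qb x, coeffEmb_mem_laurentBaseChange Qb (subset_adjoin ℚ _ hx)⟩
        = W ⟨coeffEmb Qb x, coeffEmb_mem_laurentBaseChange Qb (subset_adjoin ℚ _ hx)⟩)
    (y : FLb N) : W (galF N σ • y) = galF N σ • W y := by
  -- rational elements
  have hrat : ∀ x (hx : x ∈ modularFunctionFieldFull N),
      (⟨coeffEmb Qb x, coeffEmb_mem_laurentBaseChange Qb hx⟩ : FLb N) ∈ gwSubfield W σ := by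
    intro x hx
    induction hx using IntermediateField.adjoin_induction with
    | mem x hx =>
      rw [mem_gwSubfield, gw_smul_coeffEmb]
      exact (hW x hx).symm
    | algebraMap c =>
      have e : (⟨coeffEmb Qb (algebraMap ℚ (LaurentSeries ℚ) c),
          coeffEmb_mem_laurentBaseChange Qb (IntermediateField.algebraMap_mem _ c)⟩ : FLb N)
          = algebraMap Qb (FLb N) (algebraMap ℚ Qb c) := by
        apply Subtype.ext
        show coeffEmb Qb (algebraMap ℚ (LaurentSeries ℚ) c)
          = algebraMap Qb (LaurentSeries Qb) (algebraMap ℚ Qb c)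
        rw [coeffEmb, algebraMap_laurentSeries_eq_single, algebraMap_laurentSeries_eq_single,
          coeffMap_single]
      rw [e]
      exact gw_const_mem W σ _
    | add a b ha hb iha ihb =>
      have e : (⟨coeffEmb Qb (a + b), coeffEmb_mem_laurentBaseChange Qb (add_mem ha hb)⟩ : FLb N)
          = ⟨coeffEmb Qb a, coeffEmb_mem_laurentBaseChange Qb ha⟩
            + ⟨coeffEmb Qb b, coeffEmb_mem_laurentBaseChange Qb hb⟩ := by
        apply Subtype.ext
        exact map_add (coeffEmb Qb) a b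
      rw [e]
      exact (gwSubfield W σ).add_mem iha ihb
    | inv a ha iha =>
      have e : (⟨coeffEmb Qb a⁻¹, coeffEmb_mem_laurentBaseChange Qb (inv_mem ha)⟩ : FLb N)
          = (⟨coeffEmb Qb a, coeffEmb_mem_laurentBaseChange Qb ha⟩ : FLb N)⁻¹ := by
        apply Subtype.ext
        exact map_inv₀ (coeffEmb Qb) a
      rw [e]
      exact (gwSubfield W σ).inv_mem iha
    | mul a b ha hb iha ihb =>
      have e : (⟨coeffEmb Qb (a * b), coeffEmb_mem_laurentBaseChange Qb (mul_mem ha hb)⟩ : FLb N)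
          = ⟨coeffEmb Qb a, coeffEmb_mem_laurentBaseChange Qb ha⟩
            * ⟨coeffEmb Qb b, coeffEmb_mem_laurentBaseChange Qb hb⟩ := by
        apply Subtype.ext
        exact map_mul (coeffEmb Qb) a b
      rw [e]
      exact (gwSubfield W σ).mul_mem iha ihb
  -- all elements
  have hall : ∀ z (hz : z ∈ Fermat.Agent.H18.rvFL Qb N), (⟨z, hz⟩ : FLb N) ∈ gwSubfield W σ := by
    intro z hz
    induction hz using IntermediateField.adjoin_induction with
    | mem z hz =>
      obtain ⟨x, hx, rfl⟩ := hz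
      exact hrat x hx
    | algebraMap c =>
      have e : (⟨algebraMap Qb (LaurentSeries Qb) c,
          IntermediateField.algebraMap_mem _ c⟩ : FLb N) = algebraMap Qb (FLb N) c := rfl
      rw [e]
      exact gw_const_mem W σ c
    | add a b ha hb iha ihb =>
      have e : (⟨a + b, add_mem ha hb⟩ : FLb N) = (⟨a, ha⟩ : FLb N) + (⟨b, hb⟩ : FLb N) := rfl
      rw [e]
      exact (gwSubfield W σ).add_mem iha ihb
    | inv a ha iha =>
      have e : (⟨a⁻¹, inv_mem ha⟩ : FLb N) = (⟨a, ha⟩ : FLb N)⁻¹ := rfl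
      rw [e]
      exact (gwSubfield W σ).inv_mem iha
    | mul a b ha hb iha ihb =>
      have e : (⟨a * b, mul_mem ha hb⟩ : FLb N) = (⟨a, ha⟩ : FLb N) * (⟨b, hb⟩ : FLb N) := rfl
      rw [e]
      exact (gwSubfield W σ).mul_mem iha ihb
  exact hall y.1 y.2

/-- the generators `j(q^d)` are fixed by the Galois action -/
theorem gw_smul_jBarD [NeZero N] (σ : GQ) (d : ℕ) [NeZero d] (hd : d ∣ N) :
    galF N σ • Fermat.Agent.H23.jBarD N d hd = Fermat.Agent.H23.jBarD N d hd :=
  gw_smul_coeffEmb σ _ _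

/-- **`W` commutes with the Galois action**, if it permutes the generators `j(q^d)`, `d ∣ N`. -/
theorem gw_comm_of_perm [NeZero N] (W : FLb N ≃ₐ[Qb] FLb N)
    (hW : ∀ (d : ℕ) (_ : NeZero d) (hd : d ∣ N), ∃ (d' : ℕ) (_ : NeZero d') (hd' : d' ∣ N),
      W (Fermat.Agent.H23.jBarD N d hd) = Fermat.Agent.H23.jBarD N d' hd')
    (σ : GQ) (y : FLb N) : W (galF N σ • y) = galF N σ • W y := by
  refine gw_comm W σ ?_ y
  rintro x ⟨d, hd0, hd, rfl⟩
  obtain ⟨d', hd0', hd', e⟩ := hW d hd0 hd
  have e' : W ⟨coeffEmb Qb (qExpand ℚ d jq),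
      coeffEmb_mem_laurentBaseChange Qb (subset_adjoin ℚ _ ⟨d, hd0, hd, rfl⟩)⟩
      = Fermat.Agent.H23.jBarD N d' hd' := e
  rw [e']
  exact gw_smul_jBarD σ d' hd'

/-! ### Transport of the Galois properties along `W` -/

/-- if `σ` preserves `V`, it preserves `V.comap W` -/
theorem gw_dec_comap (W : FLb N ≃ₐ[Qb] FLb N) (σ : GQ)
    (hc : ∀ y, W (galF N σ • y) = galF N σ • W y) (V : Subring (FLb N))
    (hV : ∀ u ∈ V, galF N σ • u ∈ V) (u : FLb N)
    (hu : u ∈ V.comap (W : FLb N →+* FLb N)) :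
    galF N σ • u ∈ V.comap (W : FLb N →+* FLb N) := by
  rw [Subring.mem_comap] at hu ⊢
  show W (galF N σ • u) ∈ V
  rw [hc]
  exact hV _ hu

end Fermat.Agent.H85.ORD

end
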