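/-
helper85, P-ORD (block B1, abstract side): the symmetry `∞ ↔ 0` of the nodal reduction interface
`Fermat.Agent.H18.ORD.NodalRvHyp`.  `G.swap` exchanges the two components; `NodalRvHyp.swap`
transports the hypotheses, so every statement about the component `C_∞` has a twin on `C_0`.
Everything lives in namespace `Fermat.Agent.H85.ORD`.
-/
import Fermat.Agent.H18.ORD.NodalBal

set_option autoImplicit false
set_option linter.unusedSectionVars false

noncomputable section

open AlgebraicCurve ModularCurve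

namespace Fermat.Agent.H85.ORD

open Fermat.Agent.H72.FF Fermat.Agent.H18.ORD

variable {N : ℕ} {A : ValuationSubring Qb} {Foo F0 : Type} [Field Foo] [Field F0]
  [Algebra (kRes A) Foo] [Algebra (kRes A) F0] {ι : Type}

/-- exchange of the two components on the points of the special fibre -/
def nptSwap {Poo P0 ι : Type} : NPt Poo P0 ι → NPt P0 Poo ι
  | NPt.oo Q => NPt.zero Q
  | NPt.zero Q => NPt.oo Q
  | NPt.node ν => NPt.node ν

@[simp] theorem nptSwap_oo {Poo P0 ι : Type} (Q : Poo) :
    nptSwap (NPt.oo Q : NPt Poo P0 ι) = NPt.zero Q := rfl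

@[simp] theorem nptSwap_zero {Poo P0 ι : Type} (Q : P0) :
    nptSwap (NPt.zero Q : NPt Poo P0 ι) = NPt.oo Q := rfl

@[simp] theorem nptSwap_node {Poo P0 ι : Type} (ν : ι) :
    nptSwap (NPt.node ν : NPt Poo P0 ι) = NPt.node ν := rfl

@[simp] theorem nptSwap_nptSwap {Poo P0 ι : Type} (x : NPt Poo P0 ι) :
    nptSwap (nptSwap x) = x := by
  cases x <;> rfl

theorem nptSwap_injective {Poo P0 ι : Type} :
    Function.Injective (nptSwap : NPt Poo P0 ι → NPt P0 Poo ι) := by
  intro x y h
  have := congrArg nptSwap h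
  simpa using this

theorem nptSwap_eq_iff {Poo P0 ι : Type} (x : NPt Poo P0 ι) (y : NPt P0 Poo ι) :
    nptSwap x = y ↔ x = nptSwap y := by
  constructor
  · intro h
    rw [← h, nptSwap_nptSwap]
  · intro h
    rw [h, nptSwap_nptSwap]

/-- the nodal data with the two components exchanged -/
def swapData (G : NodalData N A Foo F0 ι) : NodalData N A F0 Foo ι where
  Voo := G.V0
  V0 := G.Voo
  redOo := G.red0
  red0 := G.redOo
  nOo := G.n0
  n0 := G.nOo
  r := fun P => nptSwap (G.r P)

theorem swapData_r (G : NodalData N A Foo F0 ι) (P : Place Qb (FLb N)) :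
    (swapData G).r P = nptSwap (G.r P) := rfl

theorem mapDomain_swap (G : NodalData N A Foo F0 ι) (D : Divisor Qb (FLb N))
    (x : NPt (Place (kRes A) Foo) (Place (kRes A) F0) ι) :
    Finsupp.mapDomain (swapData G).r D (nptSwap x) = Finsupp.mapDomain G.r D x := by
  have h1 : (swapData G).r = nptSwap ∘ G.r := rfl
  rw [h1, Finsupp.mapDomain_comp, Finsupp.mapDomain_apply nptSwap_injective]

variable {p : ℕ} {G : NodalData N A Foo F0 ι}

/-- **Symmetry of the nodal reduction hypotheses.** -/
theorem nodalRvHyp_swap (H : NodalRvHyp p G) : NodalRvHyp p (swapData G) where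
  const_oo := H.const_zero
  const_zero := H.const_oo
  red_const_oo := H.red_const_zero
  red_const_zero := H.red_const_oo
  norm_oo := H.norm_zero
  norm_zero := H.norm_oo
  inv_oo := H.inv_zero
  inv_zero := H.inv_oo
  surj_oo := H.surj_zero
  surj_zero := H.surj_oo
  ne := fun h => H.ne h.symm
  nOo_inj := H.n0_inj
  n0_inj := H.nOo_inj
  r_oo := by
    intro P Q h
    refine H.r_zero P Q ?_
    have h1 : nptSwap (G.r P) = NPt.oo Q := h
    rw [nptSwap_eq_iff] at h1
    exact h1
  r_zero := by
    intro P Q h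
    refine H.r_oo P Q ?_
    have h1 : nptSwap (G.r P) = NPt.zero Q := h
    rw [nptSwap_eq_iff] at h1
    exact h1
  smooth_oo := by
    intro u hu D hD Q hQ
    have h1 := H.smooth_zero u hu D hD Q hQ
    have h2 := mapDomain_swap G D (NPt.zero Q)
    exact h2.trans h1
  smooth_zero := by
    intro w hw D hD Q hQ
    have h1 := H.smooth_oo w hw D hD Q hQ
    have h2 := mapDomain_swap G D (NPt.oo Q)
    exact h2.trans h1
  node_le := by
    intro u w c hu hw hwu ν hν
    have hw0 : ((w : G.Voo) : FLb N) ≠ 0 := by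
      intro h
      apply hw
      have : w = 0 := Subtype.ext h
      rw [this, map_zero]
    have hc0 : c ≠ 0 := by
      rintro rfl
      rw [map_zero, zero_mul] at hwu
      exact hw0 hwu
    have hcL : algebraMap Qb (FLb N) c ≠ 0 := by
      rw [Ne, map_eq_zero_iff _ (algebraMap Qb (FLb N)).injective]
      exact hc0
    have huw : ((u : G.V0) : FLb N) = algebraMap Qb (FLb N) c⁻¹ * ((w : G.Voo) : FLb N) := by
      rw [hwu, map_inv₀, ← mul_assoc, inv_mul_cancel₀ hcL, one_mul]
    have hν' : ∀ P, G.r P = NPt.node ν → 0 ≤ P.ord ((w : G.Voo) : FLb N) := by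
      intro P hP
      rw [hwu, nb_ord_const_mul P hc0]
      refine hν P ?_
      show nptSwap (G.r P) = NPt.node ν
      rw [hP]
      rfl
    have h1 := H.node_le w u c⁻¹ hw hu huw ν hν'
    rw [inv_inv] at h1
    exact ⟨h1.2, h1.1⟩
  node_lt := by
    intro u w c hu hw hwu ν hν hex
    have hw0 : ((w : G.Voo) : FLb N) ≠ 0 := by
      intro h
      apply hw
      have : w = 0 := Subtype.ext h
      rw [this, map_zero]
    have hc0 : c ≠ 0 := by
      rintro rfl
      rw [map_zero, zero_mul] at hwu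
      exact hw0 hwu
    have hcL : algebraMap Qb (FLb N) c ≠ 0 := by
      rw [Ne, map_eq_zero_iff _ (algebraMap Qb (FLb N)).injective]
      exact hc0
    have huw : ((u : G.V0) : FLb N) = algebraMap Qb (FLb N) c⁻¹ * ((w : G.Voo) : FLb N) := by
      rw [hwu, map_inv₀, ← mul_assoc, inv_mul_cancel₀ hcL, one_mul]
    have hν' : ∀ P, G.r P = NPt.node ν → 0 ≤ P.ord ((w : G.Voo) : FLb N) := by
      intro P hP
      rw [hwu, nb_ord_const_mul P hc0]
      refine hν P ?_
      show nptSwap (G.r P) = NPt.node ν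
      rw [hP]
      rfl
    have hex' : ∃ P, G.r P = NPt.node ν ∧ 0 < P.ord ((w : G.Voo) : FLb N) := by
      obtain ⟨P, hP, hpos⟩ := hex
      refine ⟨P, ?_, ?_⟩
      · have h1 : nptSwap (G.r P) = NPt.node ν := hP
        rw [nptSwap_eq_iff] at h1
        exact h1
      · rw [hwu, nb_ord_const_mul P hc0]
        exact hpos
    have h1 := H.node_lt w u c⁻¹ hw hu huw ν hν' hex'
    rw [inv_inv] at h1
    exact ⟨h1.2, h1.1⟩
  glue := by
    intro u hu hu0 hr hr0 ν hν
    have hν' : ∀ P, G.r P = NPt.node ν → P.ord u = 0 := by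
      intro P hP
      refine hν P ?_
      show nptSwap (G.r P) = NPt.node ν
      rw [hP]
      rfl
    obtain ⟨κ, hκ, h1, h2⟩ := H.glue u hu0 hu hr0 hr ν hν'
    exact ⟨κ, hκ, h2, h1⟩
  lattice := by
    intro f hf
    obtain ⟨α, β, h, h0, hα, hne⟩ := H.lattice f hf
    refine ⟨α, β, h0, h, hα, ?_⟩
    rintro ⟨κ, h1, h2⟩
    exact hne ⟨κ, h2, h1⟩

end Fermat.Agent.H85.ORD

end
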