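/-
helper85, P-ORD block B1-LIFT, concrete leaves (UNR-NORM ∞) and (UNR-NORM 0) of helper22's route
to (PAIR-SEMI) (findings #576): **a nonzero inertia-fixed function becomes, after multiplication
by a power of `p`, a unit of the Gauss ring** `V_∞ = gaussOBar N A` (any level `N`), resp. of
`V_0 = W⁻¹ V_∞` at the level `M p`.

Proof: fixed-field descent of the `q`-expansion to `K₀ = ℚ̄^I` (helper27), Gauss normal form over
the field `K₀` (helper66), and the discreteness of the valuation of `K₀` (helper53, [DISC]).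
Everything lives in namespace `Fermat.Agent.H85.ORD`.
-/
import Fermat.Agent.H37.FF.UnrGNF
import Fermat.Agent.H53.ORD.UnrDiscThm
import Fermat.Agent.H74.ORD.NmGalFinal

set_option autoImplicit false
set_option synthInstance.maxHeartbeats 400000
set_option linter.unusedSectionVars false
set_option linter.style.haveILetI false

noncomputable section

open AlgebraicCurve ModularCurve

namespace Fermat.Agent.H85.ORD

open Fermat.Agent.H72.FF Fermat.Agent.H10.FF Fermat.Agent.H66 Fermat.Agent.H18.ORD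

section Gauss

variable {L : Type*} [Field L] (A : ValuationSubring L)

/-- a series `x` with `x · ι b = c · ι a`, `c` a unit of `A`, `ρ a ≠ 0`, `ρ b ≠ 0`, is an
element of the Gauss ring with nonzero reduction -/
theorem un_mem_of_unit {x : LaurentSeries L} {a b : LaurentSeries ↥A} {c : L} (hc0 : c ≠ 0)
    (hc : c ∈ A) (hci : c⁻¹ ∈ A) (ha : vRho A a ≠ 0) (hb : vRho A b ≠ 0)
    (h : x * vIota A b = algebraMap L (LaurentSeries L) c * vIota A a) :
    ∃ hx : x ∈ vGaussRing A, vGaussRed A ⟨x, hx⟩ ≠ 0 := by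
  have hunit : IsUnit (⟨c, hc⟩ : ↥A) := by
    refine ⟨⟨⟨c, hc⟩, ⟨c⁻¹, hci⟩, ?_, ?_⟩, rfl⟩
    · exact Subtype.ext (mul_inv_cancel₀ hc0)
    · exact Subtype.ext (inv_mul_cancel₀ hc0)
  have hres : IsLocalRing.residue ↥A (⟨c, hc⟩ : ↥A) ≠ 0 := by
    rw [Ne, IsLocalRing.residue_eq_zero_iff, IsLocalRing.mem_maximalIdeal, mem_nonunits_iff,
      not_not]
    exact hunit
  have e1 : vIota A (HahnSeries.C (⟨c, hc⟩ : ↥A) * a)
      = algebraMap L (LaurentSeries L) c * vIota A a := by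
    rw [map_mul, ← algebraMap_eq_vIota]
  have e2 : vRho A (HahnSeries.C (⟨c, hc⟩ : ↥A) * a) ≠ 0 := by
    rw [map_mul, vRho_C]
    refine mul_ne_zero ?_ ha
    intro h0
    exact hres ((map_eq_zero _).mp h0)
  have hx : x ∈ vGaussRing A := ⟨_, b, hb, h.trans e1.symm⟩
  refine ⟨hx, ?_⟩
  rw [vGaussRed_eq A ⟨x, hx⟩ _ b hb (h.trans e1.symm)]
  exact div_ne_zero e2 hb

end Gauss

section Bar

variable {N : ℕ} {A : ValuationSubring Qb}

set_option maxHeartbeats 1600000 in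
/-- **(UNR-NORM ∞)** : a nonzero inertia-fixed function times a suitable power of `p` lies in
the Gauss ring `V_∞` and has nonzero reduction. -/
theorem unrNorm_gaussOBar (p : ℕ) (hp : p.Prime) (hA : A.LiesOverPrime p) (f : FLb N)
    (hf : f ≠ 0) (hunr : IsUnrFn A N f) :
    ∃ (n : ℤ) (h : algebraMap Qb (FLb N) ((p : Qb) ^ n) * f ∈ gaussOBar N A),
      gaussRedBar N A ⟨_, h⟩ ≠ 0 := by
  set K₀ := IntermediateField.fixedField (A.inertiaSubgroupIn ℚ) with hK₀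
  set R' : ValuationSubring ↥K₀ := A.comap (algebraMap ↥K₀ Qb) with hR'
  have hfix : ∀ σ ∈ A.inertiaSubgroupIn ℚ,
      coeffMap ((σ : Qb ≃ₐ[ℚ] Qb) : Qb →+* Qb) (f : LaurentSeries Qb) = f := by
    intro σ hσ
    have h1 := hunr σ hσ
    have h2 := congrArg (fun z : FLb N => (z : LaurentSeries Qb)) h1
    exact h2
  obtain ⟨f₁, hf₁, hf₁f⟩ := Fermat.Agent.H27.FF.fixedDescent (modularFunctionFieldFull N)
    (A.inertiaSubgroupIn ℚ) (f : LaurentSeries Qb) f.2 hfix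
  have hf₁0 : f₁ ≠ 0 := by
    rintro rfl
    rw [map_zero] at hf₁f
    exact hf (Subtype.ext hf₁f.symm)
  obtain ⟨c₁, a₁, b₁, hc₁, ha₁, hb₁, hra, hrb, h⟩ :=
    Fermat.Agent.H66.exists_gnf N R' hf₁ hf₁0
  -- the constant
  have hc0 : (algebraMap ↥K₀ Qb c₁ : Qb) ≠ 0 := fun h0 => hc₁ ((map_eq_zero _).mp h0)
  have hcfix : ∀ σ ∈ A.inertiaSubgroupIn ℚ, σ (algebraMap ↥K₀ Qb c₁) = algebraMap ↥K₀ Qb c₁ :=
    fun σ hσ => (IntermediateField.mem_fixedField_iff _ _).mp c₁.2 σ hσ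
  obtain ⟨n, hn1, hn2⟩ :=
    Fermat.Agent.H53.unrDisc_of_liesOver p A hp hA (algebraMap ↥K₀ Qb c₁) hc0 hcfix
  have hp0 : (p : Qb) ≠ 0 := by
    exact_mod_cast hp.ne_zero
  have hcn0 : (algebraMap ↥K₀ Qb c₁ : Qb) * (p : Qb) ^ n ≠ 0 :=
    mul_ne_zero hc0 (zpow_ne_zero n hp0)
  -- transport to `A`
  have hcomp : (A.subtype : ↥A →+* Qb).comp (Fermat.Agent.H37.FF.unrIncl A) =
      (algebraMap ↥K₀ Qb).comp R'.subtype := RingHom.ext fun _ => rfl
  have hι : ∀ y : LaurentSeries ↥R', vIota A (coeffMap (Fermat.Agent.H37.FF.unrIncl A) y) =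
      coeffMap (algebraMap ↥K₀ Qb) (vIota R' y) := by
    intro y
    show coeffMap A.subtype (coeffMap (Fermat.Agent.H37.FF.unrIncl A) y) =
      coeffMap (algebraMap ↥K₀ Qb) (coeffMap R'.subtype y)
    rw [coeffMap_coeffMap, coeffMap_coeffMap, hcomp]
  have hred : ∀ y : LaurentSeries ↥R', vRho R' y ≠ 0 →
      vRho A (coeffMap (Fermat.Agent.H37.FF.unrIncl A) y) ≠ 0 := by
    intro y hy
    obtain ⟨m, hm⟩ := (vRho_ne_zero_iff R' y).mp hy
    rw [vRho_ne_zero_iff]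
    exact ⟨m, hm.map (Fermat.Agent.H37.FF.unrIncl A)⟩
  -- the relation over `ℚ̄`
  have hrel : (f : LaurentSeries Qb) * vIota A (coeffMap (Fermat.Agent.H37.FF.unrIncl A) b₁)
      = algebraMap Qb (LaurentSeries Qb) (algebraMap ↥K₀ Qb c₁)
        * vIota A (coeffMap (Fermat.Agent.H37.FF.unrIncl A) a₁) := by
    rw [hι, hι, ← hf₁f, ← map_mul, h, map_mul, Fermat.Agent.H27.FF.coeffMap_algebraMap_hom]
  have hrel' : (algebraMap Qb (LaurentSeries Qb) ((p : Qb) ^ n) * (f : LaurentSeries Qb))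
      * vIota A (coeffMap (Fermat.Agent.H37.FF.unrIncl A) b₁)
      = algebraMap Qb (LaurentSeries Qb) (algebraMap ↥K₀ Qb c₁ * (p : Qb) ^ n)
        * vIota A (coeffMap (Fermat.Agent.H37.FF.unrIncl A) a₁) := by
    rw [mul_assoc, hrel, map_mul]
    ring
  obtain ⟨hx, hxr⟩ := un_mem_of_unit A hcn0 hn1 hn2 (hred a₁ hra) (hred b₁ hrb) hrel'
  exact ⟨n, hx, hxr⟩

end Bar

section Nm

open Fermat.Agent.H84.ORD

variable {M p : ℕ} [NeZero M] [NeZero p] {A : ValuationSubring Qb}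

/-- **(UNR-NORM ∞) for `nmG`.** -/
theorem nm_unrNorm_oo (h : NmSetup M p A) (htot : NmTot M p h.cop A) (f : FLb (M * p))
    (hf : f ≠ 0) (hunr : IsUnrFn A (M * p) f) :
    ∃ (n : ℤ) (hm : algebraMap Qb (FLb (M * p)) ((p : Qb) ^ n) * f ∈ (nmG htot).Voo),
      (nmG htot).redOo ⟨_, hm⟩ ≠ 0 := by
  obtain ⟨n, hm, hr⟩ := unrNorm_gaussOBar p h.prime h.liesOver f hf hunr
  refine ⟨n, hm, ?_⟩
  intro h0
  exact hr ((nmRedOo_eq_zero_iff (M * p) A _).mp h0)

/-- `W` preserves the inertia-fixed functions -/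
theorem nm_isUnrFn_W (hcop : Nat.Coprime M p) {f : FLb (M * p)} (hunr : IsUnrFn A (M * p) f) :
    IsUnrFn A (M * p) (nmW M p hcop f) := by
  intro σ hσ
  rw [← Fermat.Agent.H74.ORD.nmW_galF_comm hcop σ f, hunr σ hσ]

/-- **(UNR-NORM 0) for `nmG`.** -/
theorem nm_unrNorm_zero (h : NmSetup M p A) (htot : NmTot M p h.cop A) (f : FLb (M * p))
    (hf : f ≠ 0) (hunr : IsUnrFn A (M * p) f) :
    ∃ (n : ℤ) (hm : algebraMap Qb (FLb (M * p)) ((p : Qb) ^ n) * f ∈ (nmG htot).V0),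
      (nmG htot).red0 ⟨_, hm⟩ ≠ 0 := by
  have hWf : nmW M p h.cop f ≠ 0 := by
    intro h0
    exact hf ((map_eq_zero_iff _ (nmW M p h.cop).injective).mp h0)
  obtain ⟨n, hm, hr⟩ := unrNorm_gaussOBar p h.prime h.liesOver (nmW M p h.cop f) hWf
    (nm_isUnrFn_W h.cop hunr)
  have e : nmW M p h.cop (algebraMap Qb (FLb (M * p)) ((p : Qb) ^ n) * f)
      = algebraMap Qb (FLb (M * p)) ((p : Qb) ^ n) * nmW M p h.cop f := by
    rw [map_mul, AlgEquiv.commutes]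
  have hm' : algebraMap Qb (FLb (M * p)) ((p : Qb) ^ n) * f ∈ nmV0 M p h.cop A := by
    rw [mem_nmV0_iff, e]
    exact hm
  refine ⟨n, hm', ?_⟩
  intro h0
  apply hr
  have h1 : nmRed0 M p h.cop A ⟨_, hm'⟩ = 0 := h0
  rw [nmRed0_apply, nmRedOo_eq_zero_iff] at h1
  have e2 : (⟨nmW M p h.cop (algebraMap Qb (FLb (M * p)) ((p : Qb) ^ n) * f), hm'⟩ :
      gaussOBar (M * p) A) = ⟨_, hm⟩ := Subtype.ext e
  rw [e2] at h1
  exact h1

end Nm

end Fermat.Agent.H85.ORD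

end
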