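/-
helper85, P-ORD (block B1, abstract side): **the specialisation map is invariant under every
automorphism which preserves the two Gauss rings and acts trivially on their reductions**
(in particular under the inertia group), as a CONSEQUENCE of the nodal reduction hypotheses
`Fermat.Agent.H18.ORD.NodalRvHyp` (no lifting theorem, no Galois hypothesis on `r`).

So the field `inertia_r` of `NodalGalHyp` need not be proved by the instance provider:
`inertia_r_of` derives it from `inertia_oo`, `inertia_zero` and the stability of `V_∞`, `V_0`.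

Method: a non-constant `f` with poles only at `P`, normalised by (M5), has a reduction with a pole
exactly at the point `r P` (`ir_pole_oo`, `ir_pole_node`), and no pole elsewhere (`ir_reg_oo`).
Everything lives in namespace `Fermat.Agent.H85.ORD`.
-/
import Fermat.Agent.H85.ORD.NodalSwap
import Fermat.Agent.H18.RedCoord

set_option autoImplicit false
set_option linter.unusedSectionVars false
set_option linter.unusedVariables false

noncomputable section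

open AlgebraicCurve ModularCurve

namespace Fermat.Agent.H85.ORD

open Fermat.Agent.H72.FF Fermat.Agent.H18.ORD Fermat.Agent.H10.FF

variable {N : ℕ} {A : ValuationSubring Qb} {Foo F0 : Type} [Field Foo] [Field F0]
  [Algebra (kRes A) Foo] [Algebra (kRes A) F0] {ι : Type}

/-- The ambient hypotheses: `A` lies over `p`, divisors of functions exist on the generic fibre,
and the functions without poles on the two components are the constants. -/
structure IrAmbient (p : ℕ) (G : NodalData N A Foo F0 ι) : Prop where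
  /-- `p ∈ 𝔪_A` -/
  hA : A.LiesOverPrime p
  /-- `p ≠ 0` -/
  hp0 : p ≠ 0
  /-- divisors of functions exist -/
  hdiv : ∀ f : FLb N, f ≠ 0 → ∃ D : Divisor Qb (FLb N), ∀ P, D P = P.ord f
  /-- regular functions on `C_∞` are constant -/
  regOo : ∀ x : Foo, (∀ Q : Place (kRes A) Foo, x = 0 ∨ 0 ≤ Q.ord x) →
    ∃ κ : kRes A, x = algebraMap (kRes A) Foo κ
  /-- regular functions on `C_0` are constant -/
  reg0 : ∀ x : F0, (∀ Q : Place (kRes A) F0, x = 0 ∨ 0 ≤ Q.ord x) →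
    ∃ κ : kRes A, x = algebraMap (kRes A) F0 κ

variable {p : ℕ} {G : NodalData N A Foo F0 ι}

theorem IrAmbient.swap (a : IrAmbient p G) : IrAmbient p (swapData G) where
  hA := a.hA
  hp0 := a.hp0
  hdiv := a.hdiv
  regOo := a.reg0
  reg0 := a.regOo

theorem IrAmbient.p_mem (a : IrAmbient p G) : (p : Qb) ∈ A.nonunits := a.hA

theorem IrAmbient.p_ne (a : IrAmbient p G) : (p : Qb) ≠ 0 := by
  exact_mod_cast a.hp0

/-! ### Constants -/

/-- the reduction of a constant of `𝔪_A` is zero -/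
theorem ir_red_const_nonunit (H : NodalRvHyp p G) {c : Qb} (hc : c ∈ A.nonunits)
    (h : algebraMap Qb (FLb N) c ∈ G.Voo) : G.redOo ⟨_, h⟩ = 0 := by
  have hcA : c ∈ A := A.nonunits_subset hc
  have h1 := H.red_const_oo ⟨c, hcA⟩ h
  rw [h1]
  have h2 : IsLocalRing.residue A (⟨c, hcA⟩ : A) = 0 := by
    rw [IsLocalRing.residue_eq_zero_iff, ← A.coe_mem_nonunits_iff]
    exact hc
  rw [h2, map_zero]

/-- if `h = c w` with `w` normalised at `V_∞` and `c⁻¹ ∈ A`, `c ≠ 0`, and `h ∈ V_∞` has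
reduction `x`, then `red w = (c⁻¹ mod 𝔪) x`; in particular `c⁻¹ ∈ 𝔪_A` is impossible. -/
theorem ir_norm_const_mem (H : NodalRvHyp p G) {h : FLb N} (hV : h ∈ G.Voo) {c : Qb}
    {w : G.Voo} (hc : c ≠ 0) (hw : G.redOo w ≠ 0)
    (hhw : h = algebraMap Qb (FLb N) c * (w : FLb N)) : c ∈ A := by
  by_contra hcA
  have hci : c⁻¹ ∈ A := (A.mem_or_inv_mem c).resolve_left hcA
  have hcn : c⁻¹ ∈ A.nonunits := by
    rw [A.mem_nonunits_iff_or, inv_inv]
    exact Or.inr hcA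
  have hcL : algebraMap Qb (FLb N) c ≠ 0 := by
    rw [Ne, map_eq_zero_iff _ (algebraMap Qb (FLb N)).injective]
    exact hc
  have hmem : algebraMap Qb (FLb N) c⁻¹ ∈ G.Voo := (H.const_oo _).mpr hci
  have hw' : w = ⟨_, hmem⟩ * ⟨h, hV⟩ := by
    apply Subtype.ext
    show (w : FLb N) = algebraMap Qb (FLb N) c⁻¹ * h
    rw [hhw, map_inv₀, ← mul_assoc, inv_mul_cancel₀ hcL, one_mul]
  apply hw
  rw [hw', map_mul, ir_red_const_nonunit H hcn hmem, zero_mul]

/-- if moreover the reduction of `h` vanishes, then `c ∈ 𝔪_A` -/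
theorem ir_norm_const_nonunit (H : NodalRvHyp p G) {h : FLb N} (hV : h ∈ G.Voo)
    (hr : G.redOo ⟨h, hV⟩ = 0) {c : Qb}
    {w : G.Voo} (hc : c ≠ 0) (hw : G.redOo w ≠ 0)
    (hhw : h = algebraMap Qb (FLb N) c * (w : FLb N)) : c ∈ A.nonunits := by
  rw [A.mem_nonunits_iff_or]
  refine Or.inr ?_
  intro hci
  have hcL : algebraMap Qb (FLb N) c ≠ 0 := by
    rw [Ne, map_eq_zero_iff _ (algebraMap Qb (FLb N)).injective]
    exact hc
  have hmem : algebraMap Qb (FLb N) c⁻¹ ∈ G.Voo := (H.const_oo _).mpr hci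
  have hw' : w = ⟨_, hmem⟩ * ⟨h, hV⟩ := by
    apply Subtype.ext
    show (w : FLb N) = algebraMap Qb (FLb N) c⁻¹ * h
    rw [hhw, map_inv₀, ← mul_assoc, inv_mul_cancel₀ hcL, one_mul]
  apply hw
  rw [hw', map_mul, hr, mul_zero]

theorem ir_ne_zero_of_red {h : FLb N} (hV : h ∈ G.Voo) (hr : G.redOo ⟨h, hV⟩ ≠ 0) : h ≠ 0 := by
  rintro rfl
  apply hr
  have : (⟨0, hV⟩ : G.Voo) = 0 := rfl
  rw [this, map_zero]

/-! ### Regularity of the reduction away from the specialisation of the poles -/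

/-- smooth points of `C_∞` : no pole in the disc, no pole of the reduction -/
theorem ir_smooth_nonneg (H : NodalRvHyp p G) (a : IrAmbient p G) (u : G.Voo)
    (hu : G.redOo u ≠ 0) (Q : Place (kRes A) Foo) (hQ : Q ∉ Set.range G.nOo)
    (hnp : ∀ P, G.r P = NPt.oo Q → 0 ≤ P.ord (u : FLb N)) : 0 ≤ Q.ord (G.redOo u) := by
  have hu0 : (u : FLb N) ≠ 0 := by
    intro h
    apply hu
    have : u = 0 := Subtype.ext h
    rw [this, map_zero]
  obtain ⟨D, hD⟩ := a.hdiv _ hu0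
  rw [← H.smooth_oo u hu D hD Q hQ]
  refine Fermat.Agent.H18.rv_mapDomain_nonneg_fibre G.r D (NPt.oo Q) ?_
  intro P hP
  rw [hD]
  exact hnp P hP

/-- nodes, branch on `C_∞` : no pole specialising to the node, no pole of the reduction -/
theorem ir_node_nonneg (H : NodalRvHyp p G) (a : IrAmbient p G) (h : FLb N) (hV : h ∈ G.Voo)
    (hV0 : h ∈ G.V0) (hr : G.redOo ⟨h, hV⟩ ≠ 0) (ν : ι)
    (hnp : ∀ P, G.r P = NPt.node ν → 0 ≤ P.ord h) :
    0 ≤ (G.nOo ν).ord (G.redOo ⟨h, hV⟩) := by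
  have hne : h ≠ 0 := ir_ne_zero_of_red hV hr
  obtain ⟨c, w, hc, hw, hhw⟩ := H.norm_zero h hne
  have hcA : c ∈ A := ir_norm_const_mem (nodalRvHyp_swap H) (G := swapData G) hV0 hc hw hhw
  have hcL : algebraMap Qb (FLb N) c ≠ 0 := by
    rw [Ne, map_eq_zero_iff _ (algebraMap Qb (FLb N)).injective]
    exact hc
  have hwh : (w : FLb N) = algebraMap Qb (FLb N) c⁻¹ * ((⟨h, hV⟩ : G.Voo) : FLb N) := by
    show (w : FLb N) = algebraMap Qb (FLb N) c⁻¹ * h
    rw [hhw, map_inv₀, ← mul_assoc, inv_mul_cancel₀ hcL, one_mul]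
  have h1 := (H.node_le ⟨h, hV⟩ w c⁻¹ hr hw hwh ν hnp).1
  refine na_nonneg_of_unit a.p_mem a.p_ne (inv_ne_zero hc) ?_ h1
  rw [inv_inv]
  exact hcA

/-- **Regularity on `C_∞`**: if all poles of `h` lie at `P`, the reduction of `h` on `C_∞` has
no pole away from the specialisation of `P`. -/
theorem ir_reg_oo (H : NodalRvHyp p G) (a : IrAmbient p G) (P : Place Qb (FLb N)) (h : FLb N)
    (hV : h ∈ G.Voo) (hV0 : h ∈ G.V0) (hr : G.redOo ⟨h, hV⟩ ≠ 0)
    (hpole : ∀ P', P' ≠ P → 0 ≤ P'.ord h) (Q : Place (kRes A) Foo)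
    (hQ1 : G.r P ≠ NPt.oo Q) (hQ2 : ∀ ν, G.nOo ν = Q → G.r P ≠ NPt.node ν) :
    0 ≤ Q.ord (G.redOo ⟨h, hV⟩) := by
  by_cases hQ : Q ∈ Set.range G.nOo
  · obtain ⟨ν, rfl⟩ := hQ
    refine ir_node_nonneg H a h hV hV0 hr ν ?_
    intro P' hP'
    refine hpole P' ?_
    rintro rfl
    exact hQ2 ν rfl hP'
  · refine ir_smooth_nonneg H a ⟨h, hV⟩ hr Q hQ ?_
    intro P' hP'
    refine hpole P' ?_
    rintro rfl
    exact hQ1 hP'

/-- one-sided vanishing: if `red_∞ h = 0 ≠ red_0 h` and no pole of `h` specialises to `ν`,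
then `red_0 h` vanishes at `ν`. -/
theorem ir_vanish_node (H : NodalRvHyp p G) (a : IrAmbient p G) (h : FLb N) (hV : h ∈ G.Voo)
    (hV0 : h ∈ G.V0) (hr : G.redOo ⟨h, hV⟩ = 0) (hr0 : G.red0 ⟨h, hV0⟩ ≠ 0) (ν : ι)
    (hnp : ∀ P, G.r P = NPt.node ν → 0 ≤ P.ord h) :
    1 ≤ (G.n0 ν).ord (G.red0 ⟨h, hV0⟩) := by
  have hne : h ≠ 0 := ir_ne_zero_of_red (G := swapData G) hV0 hr0
  obtain ⟨c, u, hc, hu, hhu⟩ := H.norm_oo h hne
  have hcn : c ∈ A.nonunits := ir_norm_const_nonunit H hV hr hc hu hhu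
  have hnp' : ∀ P, G.r P = NPt.node ν → 0 ≤ P.ord (u : FLb N) := by
    intro P hP
    have := hnp P hP
    rw [hhu, nb_ord_const_mul P hc] at this
    exact this
  have h1 := (H.node_le u ⟨h, hV0⟩ c hu hr0 hhu ν hnp').2
  exact na_one_le_of_mem_nonunits (A.nonunits_subset a.p_mem) a.p_ne hcn hc h1

/-- gluing of two constant reductions -/
theorem ir_glue_const (H : NodalRvHyp p G) (a : IrAmbient p G) (h : FLb N) (hV : h ∈ G.Voo)
    (hV0 : h ∈ G.V0) {κ κ' : kRes A} (hκ : κ ≠ 0) (hκ' : κ' ≠ 0)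
    (hr : G.redOo ⟨h, hV⟩ = algebraMap (kRes A) Foo κ)
    (hr0 : G.red0 ⟨h, hV0⟩ = algebraMap (kRes A) F0 κ') (ν : ι)
    (hnp : ∀ P, G.r P = NPt.node ν → 0 ≤ P.ord h) : κ = κ' := by
  have hrne : G.redOo ⟨h, hV⟩ ≠ 0 := by
    rw [hr, Ne, map_eq_zero_iff _ (algebraMap (kRes A) Foo).injective]
    exact hκ
  have hr0ne : G.red0 ⟨h, hV0⟩ ≠ 0 := by
    rw [hr0, Ne, map_eq_zero_iff _ (algebraMap (kRes A) F0).injective]
    exact hκ'
  have h11 : ((⟨h, hV0⟩ : G.V0) : FLb N) =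
      algebraMap Qb (FLb N) 1 * ((⟨h, hV⟩ : G.Voo) : FLb N) := by
    rw [map_one, one_mul]
  have hzero : ∀ P, G.r P = NPt.node ν → P.ord h = 0 := by
    intro P hP
    have h1 := hnp P hP
    by_contra hne
    have hpos : 0 < P.ord h := lt_of_le_of_ne h1 (Ne.symm hne)
    have h2 := (H.node_lt ⟨h, hV⟩ ⟨h, hV0⟩ 1 hrne hr0ne h11 ν hnp ⟨P, hP, hpos⟩).1
    rw [hr, Fermat.Agent.H23.ord_algebraMap, zpow_zero, one_mul] at h2
    rcases A.mem_nonunits_iff_or.mp h2 with h3 | h3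
    · exact one_ne_zero h3
    · exact h3 (by rw [inv_one]; exact A.one_mem)
  obtain ⟨κ₀, -, h1, h2⟩ := H.glue h hV hV0 hrne hr0ne ν hzero
  rw [hr, ← map_sub] at h1
  rw [hr0, ← map_sub] at h2
  have e1 := nb_const_eq_zero_of_mem_nonunits _ h1
  have e2 := nb_const_eq_zero_of_mem_nonunits _ h2
  rw [sub_eq_zero] at e1 e2
  rw [e1, e2]

/-! ### The swapped specialisation map -/

theorem swap_r_node_iff (G : NodalData N A Foo F0 ι) (P : Place Qb (FLb N)) (ν : ι) :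
    (swapData G).r P = NPt.node ν ↔ G.r P = NPt.node ν := by
  rw [swapData_r, nptSwap_eq_iff]
  rfl

theorem swap_r_oo_iff (G : NodalData N A Foo F0 ι) (P : Place Qb (FLb N))
    (Q : Place (kRes A) F0) : (swapData G).r P = NPt.oo Q ↔ G.r P = NPt.zero Q := by
  rw [swapData_r, nptSwap_eq_iff]
  rfl

theorem swap_r_zero_iff (G : NodalData N A Foo F0 ι) (P : Place Qb (FLb N))
    (Q : Place (kRes A) Foo) : (swapData G).r P = NPt.zero Q ↔ G.r P = NPt.oo Q := by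
  rw [swapData_r, nptSwap_eq_iff]
  rfl

/-! ### The reduction has a pole at the specialisation of `P` -/

/-- the pair of reductions of `h` is not a constant pair `(κ, κ)` -/
def IrNonconst (G : NodalData N A Foo F0 ι) (h : FLb N) (hV : h ∈ G.Voo) (hV0 : h ∈ G.V0) :
    Prop :=
  ¬ ∃ κ : kRes A, G.redOo ⟨h, hV⟩ = algebraMap (kRes A) Foo κ ∧
    G.red0 ⟨h, hV0⟩ = algebraMap (kRes A) F0 κ

theorem IrNonconst.swap {h : FLb N} {hV : h ∈ G.Voo} {hV0 : h ∈ G.V0}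
    (hpair : IrNonconst G h hV hV0) : IrNonconst (swapData G) h hV0 hV := by
  rintro ⟨κ, h1, h2⟩
  exact hpair ⟨κ, h2, h1⟩

theorem IrNonconst.red0_ne {h : FLb N} {hV : h ∈ G.Voo} {hV0 : h ∈ G.V0}
    (hpair : IrNonconst G h hV hV0) (hr : G.redOo ⟨h, hV⟩ = 0) : G.red0 ⟨h, hV0⟩ ≠ 0 := by
  intro hr0
  exact hpair ⟨0, by rw [hr, map_zero], by rw [hr0, map_zero]⟩

/-- a reduction without pole is a nonzero constant -/
theorem ir_const_of_reg (a : IrAmbient p G) {x : Foo} (hx : x ≠ 0)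
    (hreg : ∀ Q : Place (kRes A) Foo, 0 ≤ Q.ord x) :
    ∃ κ : kRes A, κ ≠ 0 ∧ x = algebraMap (kRes A) Foo κ := by
  obtain ⟨κ, hκ⟩ := a.regOo x (fun Q => Or.inr (hreg Q))
  refine ⟨κ, ?_, hκ⟩
  rintro rfl
  rw [map_zero] at hκ
  exact hx hκ

/-- **Dichotomy.**  `h ∈ V_∞ ∩ V_0` with all poles at `P` and with a non-constant pair of
reductions; `ν₁` a node to which `P` does not specialise.  Then one of the two reductions is
nonzero and has a pole. -/
theorem ir_exists_pole (H : NodalRvHyp p G) (a : IrAmbient p G) (P : Place Qb (FLb N))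
    (h : FLb N) (hV : h ∈ G.Voo) (hV0 : h ∈ G.V0) (hpole : ∀ P', P' ≠ P → 0 ≤ P'.ord h)
    (hpair : IrNonconst G h hV hV0) (ν₁ : ι) (hν₁ : G.r P ≠ NPt.node ν₁) :
    (G.redOo ⟨h, hV⟩ ≠ 0 ∧ ∃ Q : Place (kRes A) Foo, Q.ord (G.redOo ⟨h, hV⟩) < 0) ∨
    (G.red0 ⟨h, hV0⟩ ≠ 0 ∧ ∃ Q : Place (kRes A) F0, Q.ord (G.red0 ⟨h, hV0⟩) < 0) := by
  have hnp : ∀ P', G.r P' = NPt.node ν₁ → 0 ≤ P'.ord h := by
    intro P' hP'
    refine hpole P' ?_
    rintro rfl
    exact hν₁ hP'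
  have hnp' : ∀ P', (swapData G).r P' = NPt.node ν₁ → 0 ≤ P'.ord h := by
    intro P' hP'
    exact hnp P' ((swap_r_node_iff G P' ν₁).mp hP')
  by_contra hcon
  rw [not_or] at hcon
  obtain ⟨hc1, hc2⟩ := hcon
  have hreg : G.redOo ⟨h, hV⟩ ≠ 0 → ∀ Q : Place (kRes A) Foo, 0 ≤ Q.ord (G.redOo ⟨h, hV⟩) := by
    intro hr Q
    by_contra hlt
    exact hc1 ⟨hr, Q, not_le.mp hlt⟩
  have hreg0 : G.red0 ⟨h, hV0⟩ ≠ 0 → ∀ Q : Place (kRes A) F0, 0 ≤ Q.ord (G.red0 ⟨h, hV0⟩) := by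
    intro hr Q
    by_contra hlt
    exact hc2 ⟨hr, Q, not_le.mp hlt⟩
  by_cases hr : G.redOo ⟨h, hV⟩ = 0
  · have hr0 := hpair.red0_ne hr
    obtain ⟨κ', -, hκ'⟩ := ir_const_of_reg a.swap (G := swapData G) hr0 (hreg0 hr0)
    have h1 := ir_vanish_node H a h hV hV0 hr hr0 ν₁ hnp
    have h2 : G.red0 ⟨h, hV0⟩ = algebraMap (kRes A) F0 κ' := hκ'
    rw [h2, Fermat.Agent.H23.ord_algebraMap] at h1
    omega
  · by_cases hr0 : G.red0 ⟨h, hV0⟩ = 0
    · obtain ⟨κ, -, hκ⟩ := ir_const_of_reg a hr (hreg hr)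
      have h1 := ir_vanish_node (nodalRvHyp_swap H) a.swap h hV0 hV hr0 hr ν₁ hnp'
      have h2 : (G.nOo ν₁).ord (G.redOo ⟨h, hV⟩) ≥ 1 := h1
      rw [hκ, Fermat.Agent.H23.ord_algebraMap] at h2
      omega
    · obtain ⟨κ, hκ0, hκ⟩ := ir_const_of_reg a hr (hreg hr)
      obtain ⟨κ', hκ'0, hκ'⟩ := ir_const_of_reg a.swap (G := swapData G) hr0 (hreg0 hr0)
      have h2 : G.red0 ⟨h, hV0⟩ = algebraMap (kRes A) F0 κ' := hκ'
      have e := ir_glue_const H a h hV hV0 hκ0 hκ'0 hκ h2 ν₁ hnp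
      exact hpair ⟨κ, hκ, by rw [h2, e]⟩

/-- "`X` is the point of `X_s` at the place `Q` of `C_∞`" -/
def IrAtOo (G : NodalData N A Foo F0 ι)
    (X : NPt (Place (kRes A) Foo) (Place (kRes A) F0) ι) (Q : Place (kRes A) Foo) : Prop :=
  X = NPt.oo Q ∨ ∃ ν, G.nOo ν = Q ∧ X = NPt.node ν

/-- a pole of the reduction on `C_∞` locates the specialisation of `P` -/
theorem ir_at_of_pole (H : NodalRvHyp p G) (a : IrAmbient p G) (P : Place Qb (FLb N))
    (h : FLb N) (hV : h ∈ G.Voo) (hV0 : h ∈ G.V0) (hr : G.redOo ⟨h, hV⟩ ≠ 0)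
    (hpole : ∀ P', P' ≠ P → 0 ≤ P'.ord h) (Q : Place (kRes A) Foo)
    (hQ : Q.ord (G.redOo ⟨h, hV⟩) < 0) : IrAtOo G (G.r P) Q := by
  by_contra hcon
  unfold IrAtOo at hcon
  rw [not_or] at hcon
  have h1 := ir_reg_oo H a P h hV hV0 hr hpole Q hcon.1
    (fun ν hν hP => hcon.2 ⟨ν, hν, hP⟩)
  omega

/-- two points in the image of `r` at the same place of `C_∞` are equal -/
theorem ir_at_unique (H : NodalRvHyp p G) (P P' : Place Qb (FLb N)) (Q : Place (kRes A) Foo)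
    (h1 : IrAtOo G (G.r P) Q) (h2 : IrAtOo G (G.r P') Q) : G.r P = G.r P' := by
  rcases h1 with h1 | ⟨ν, hν, h1⟩
  · rcases h2 with h2 | ⟨ν', hν', h2⟩
    · rw [h1, h2]
    · exact absurd ⟨ν', hν'⟩ (H.r_oo P Q h1)
  · rcases h2 with h2 | ⟨ν', hν', h2⟩
    · exact absurd ⟨ν, hν⟩ (H.r_oo P' Q h2)
    · have e : ν = ν' := H.nOo_inj (hν.trans hν'.symm)
      rw [h1, h2, e]

theorem irAtOo_swap_iff (X : NPt (Place (kRes A) Foo) (Place (kRes A) F0) ι)
    (Q : Place (kRes A) F0) :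
    IrAtOo (swapData G) (nptSwap X) Q ↔ (X = NPt.zero Q ∨ ∃ ν, G.n0 ν = Q ∧ X = NPt.node ν) := by
  unfold IrAtOo
  constructor
  · rintro (h | ⟨ν, hν, h⟩)
    · left
      rw [nptSwap_eq_iff] at h
      exact h
    · right
      refine ⟨ν, hν, ?_⟩
      rw [nptSwap_eq_iff] at h
      exact h
  · rintro (h | ⟨ν, hν, h⟩)
    · left
      rw [h]
      rfl
    · right
      refine ⟨ν, hν, ?_⟩
      rw [h]
      rfl

/-! ### Invariance of the specialisation map -/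

/-- `σ` preserves the two Gauss rings and acts trivially on the two reductions. -/
structure IsRedInvariant (G : NodalData N A Foo F0 ι) (σ : GQ) : Prop where
  /-- `σ V_∞ ⊆ V_∞` -/
  voo : ∀ u ∈ G.Voo, galF N σ • u ∈ G.Voo
  /-- `σ V_0 ⊆ V_0` -/
  vzero : ∀ u ∈ G.V0, galF N σ • u ∈ G.V0
  /-- `σ` is trivial on the reduction of `V_∞` -/
  roo : ∀ (u : G.Voo) (h : galF N σ • (u : FLb N) ∈ G.Voo), G.redOo ⟨_, h⟩ = G.redOo u
  /-- `σ` is trivial on the reduction of `V_0` -/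
  rzero : ∀ (w : G.V0) (h : galF N σ • (w : FLb N) ∈ G.V0), G.red0 ⟨_, h⟩ = G.red0 w

theorem IsRedInvariant.swap {σ : GQ} (hσ : IsRedInvariant G σ) :
    IsRedInvariant (swapData G) σ where
  voo := hσ.vzero
  vzero := hσ.voo
  roo := hσ.rzero
  rzero := hσ.roo

/-- transfer of a pole on `C_∞` : `r (σ P) = r P`. -/
theorem ir_transfer (H : NodalRvHyp p G) (a : IrAmbient p G) (σ : GQ)
    (hσ : IsRedInvariant G σ) (P : Place Qb (FLb N))
    (h : FLb N) (hV : h ∈ G.Voo) (hV0 : h ∈ G.V0) (hr : G.redOo ⟨h, hV⟩ ≠ 0)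
    (hpole : ∀ P', P' ≠ P → 0 ≤ P'.ord h) (Q : Place (kRes A) Foo)
    (hQ : Q.ord (G.redOo ⟨h, hV⟩) < 0) : G.r (galF N σ • P) = G.r P := by
  have h1 := ir_at_of_pole H a P h hV hV0 hr hpole Q hQ
  have hσV := hσ.voo h hV
  have hσV0 := hσ.vzero h hV0
  have e := hσ.roo ⟨h, hV⟩ hσV
  have hpoleσ : ∀ P', P' ≠ galF N σ • P → 0 ≤ P'.ord (galF N σ • h) := by
    intro P' hP'
    have h3 : (galF N σ • ((galF N σ)⁻¹ • P')).ord (galF N σ • h) = ((galF N σ)⁻¹ • P').ord h :=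
      SemilinearAut.ord_smul (galF N σ) ((galF N σ)⁻¹ • P') h
    rw [smul_inv_smul] at h3
    rw [h3]
    refine hpole _ ?_
    intro hcon
    apply hP'
    rw [← hcon, smul_inv_smul]
  have h2 := ir_at_of_pole H a (galF N σ • P) (galF N σ • h) hσV hσV0
    (by rw [e]; exact hr) hpoleσ Q (by rw [e]; exact hQ)
  exact ir_at_unique H _ _ Q h2 h1

/-- **Invariance of the specialisation map, core form**: given a non-constant function with
poles only at `P`. -/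
theorem inertia_r_core [Nonempty ι] (H : NodalRvHyp p G) (a : IrAmbient p G) (σ : GQ)
    (hσ : IsRedInvariant G σ) (P : Place Qb (FLb N)) (f : FLb N)
    (hf : ∀ c : Qb, f ≠ algebraMap Qb (FLb N) c) (hfp : ∀ P', P' ≠ P → 0 ≤ P'.ord f) :
    G.r (galF N σ • P) = G.r P := by
  obtain ⟨α, β, hV, hV0, hα, hpair⟩ := H.lattice f hf
  set h : FLb N := algebraMap Qb (FLb N) α * f + algebraMap Qb (FLb N) β with hh
  have hpair' : IrNonconst G h hV hV0 := hpair
  have hpole : ∀ P', P' ≠ P → 0 ≤ P'.ord h := by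
    intro P' hP'
    refine Fermat.Agent.H23.ord_nonneg_of_mem P' ?_
    have hfm : f ∈ P'.toValuationSubring :=
      (Fermat.Agent.H23.mem_iff_ord P').mpr (Or.inr (hfp P' hP'))
    exact add_mem (mul_mem (P'.algebraMap_mem' α) hfm) (P'.algebraMap_mem' β)
  -- the transported function
  have hσV := hσ.voo h hV
  have hσV0 := hσ.vzero h hV0
  have e := hσ.roo ⟨h, hV⟩ hσV
  have e0 := hσ.rzero ⟨h, hV0⟩ hσV0
  have hpairσ : IrNonconst G (galF N σ • h) hσV hσV0 := by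
    rintro ⟨κ, h1, h2⟩
    rw [e] at h1
    rw [e0] at h2
    exact hpair' ⟨κ, h1, h2⟩
  have hpoleσ : ∀ P', P' ≠ galF N σ • P → 0 ≤ P'.ord (galF N σ • h) := by
    intro P' hP'
    have h3 : (galF N σ • ((galF N σ)⁻¹ • P')).ord (galF N σ • h) = ((galF N σ)⁻¹ • P').ord h :=
      SemilinearAut.ord_smul (galF N σ) ((galF N σ)⁻¹ • P') h
    rw [smul_inv_smul] at h3
    rw [h3]
    refine hpole _ ?_
    intro hcon
    apply hP'
    rw [← hcon, smul_inv_smul]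
  -- the two transfers
  have key : ∀ ν₁ : ι, G.r P ≠ NPt.node ν₁ → G.r (galF N σ • P) = G.r P := by
    intro ν₁ hν₁
    rcases ir_exists_pole H a P h hV hV0 hpole hpair' ν₁ hν₁ with ⟨hr, Q, hQ⟩ | ⟨hr, Q, hQ⟩
    · exact ir_transfer H a σ hσ P h hV hV0 hr hpole Q hQ
    · have h1 := ir_transfer (nodalRvHyp_swap H) a.swap σ hσ.swap P h hV0 hV hr hpole Q hQ
      exact nptSwap_injective h1
  have keyσ : ∀ ν₁ : ι, G.r (galF N σ • P) ≠ NPt.node ν₁ → G.r (galF N σ • P) = G.r P := by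
    intro ν₁ hν₁
    rcases ir_exists_pole H a (galF N σ • P) (galF N σ • h) hσV hσV0 hpoleσ hpairσ ν₁ hν₁ with
      ⟨hr, Q, hQ⟩ | ⟨hr, Q, hQ⟩
    · rw [e] at hr hQ
      exact ir_transfer H a σ hσ P h hV hV0 hr hpole Q hQ
    · rw [e0] at hr hQ
      have h1 := ir_transfer (nodalRvHyp_swap H) a.swap σ hσ.swap P h hV0 hV hr hpole Q hQ
      exact nptSwap_injective h1
  obtain ⟨ν⟩ := (inferInstance : Nonempty ι)
  by_cases h1 : G.r P = NPt.node ν
  · by_cases h2 : G.r (galF N σ • P) = NPt.node ν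
    · rw [h1, h2]
    · exact keyσ ν h2
  · exact key ν h1

end Fermat.Agent.H85.ORD

end
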