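/-
helper85, P-ORD (block B1, abstract side): `inertia_r_of` -- the field `inertia_r` of
`Fermat.Agent.H18.ORD.NodalGalHyp` is a CONSEQUENCE of `NodalRvHyp`, the three Riemann packages
and of the stability of `V_∞`, `V_0` and of their reductions under the automorphism.
Everything lives in namespace `Fermat.Agent.H85.ORD`.
-/
import Fermat.Agent.H85.ORD.InertiaR

set_option autoImplicit false
set_option linter.unusedSectionVars false

noncomputable section

open AlgebraicCurve ModularCurve

namespace Fermat.Agent.H85.ORD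

open Fermat.Agent.H72.FF Fermat.Agent.H18.ORD Fermat.Agent.H10.FF Fermat.Agent.H27.ESD

/-- functions without poles are constant (from a Riemann package) -/
theorem ir_reg_of_pkg {K F : Type*} [Field K] [Field F] [Algebra K F] {g : ℕ}
    (pkg : RiemannPackage K F g) (x : F) (hx : ∀ Q : Place K F, x = 0 ∨ 0 ≤ Q.ord x) :
    ∃ κ : K, x = algebraMap K F κ := by
  have hxm : x ∈ riemannRochSpace (0 : Divisor K F) := by
    rw [mem_riemannRochSpace_iff]
    intro v
    rcases hx v with h | h
    · exact Or.inl h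
    · right
      simpa using h
  have h1m : (1 : F) ∈ riemannRochSpace (0 : Divisor K F) := by
    rw [mem_riemannRochSpace_iff]
    intro v
    right
    rw [Place.ord_one]
    simp
  have hne : (⟨1, h1m⟩ : riemannRochSpace (0 : Divisor K F)) ≠ 0 := by
    intro h
    have := congrArg Subtype.val h
    exact one_ne_zero this
  obtain ⟨c, hc⟩ := (finrank_eq_one_iff_of_nonzero' _ hne).mp pkg.finrank_zero ⟨x, hxm⟩
  refine ⟨c, ?_⟩
  have := congrArg Subtype.val hc
  simp only [Submodule.coe_smul] at this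
  rw [← this, Algebra.smul_def, mul_one]

/-- a non-constant function with poles only at `P` (Riemann's inequality) -/
theorem ir_exists_fn {K F : Type*} [Field K] [Field F] [Algebra K F] {g : ℕ}
    (pkg : RiemannPackage K F g) (P : Place K F) :
    ∃ f : F, (∀ c : K, f ≠ algebraMap K F c) ∧ ∀ P', P' ≠ P → 0 ≤ P'.ord f := by
  classical
  set D : Divisor K F := Finsupp.single P ((g : ℤ) + 1) with hD
  have hdeg : Divisor.degree D = (g : ℤ) + 1 := by
    rw [hD, Divisor.degree_single, pkg.deg_one]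
    simp
  have hR := pkg.riemann D
  rw [hdeg] at hR
  have h2 : 2 ≤ Module.finrank K (riemannRochSpace D) := by
    have : (2 : ℤ) ≤ (Module.finrank K (riemannRochSpace D) : ℤ) := by omega
    exact_mod_cast this
  have hex : ∃ f ∈ riemannRochSpace D, ∀ c : K, f ≠ algebraMap K F c := by
    by_contra hcon
    push Not at hcon
    have hle : riemannRochSpace D ≤ Submodule.span K {(1 : F)} := by
      intro f hf
      obtain ⟨c, hc⟩ := hcon f hf
      rw [Submodule.mem_span_singleton]
      refine ⟨c, ?_⟩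
      rw [hc, Algebra.smul_def, mul_one]
    have h3 := Submodule.finrank_mono hle
    have h4 : Module.finrank K (Submodule.span K {(1 : F)}) ≤ 1 := by
      have := finrank_span_le_card (R := K) ({(1 : F)} : Set F)
      simpa using this
    omega
  obtain ⟨f, hf, hfc⟩ := hex
  refine ⟨f, hfc, ?_⟩
  intro P' hP'
  rcases (mem_riemannRochSpace_iff.mp hf) P' with h | h
  · rw [h, Place.ord_zero]
  · rw [hD, Finsupp.single_apply, if_neg (Ne.symm hP'), neg_zero] at h
    exact h

variable {N : ℕ} {A : ValuationSubring Qb} {Foo F0 : Type} [Field Foo] [Field F0]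
  [Algebra (kRes A) Foo] [Algebra (kRes A) F0] {ι : Type}
variable {p : ℕ} {G : NodalData N A Foo F0 ι}

/-- the ambient hypotheses from the three Riemann packages -/
theorem irAmbient_of_pkg (hp0 : p ≠ 0) (hA : A.LiesOverPrime p) {g goo g0 : ℕ}
    (pkg : RiemannPackage Qb (FLb N) g) (pkgOo : RiemannPackage (kRes A) Foo goo)
    (pkg0 : RiemannPackage (kRes A) F0 g0) : IrAmbient p G where
  hA := hA
  hp0 := hp0
  hdiv := by
    intro f hf
    obtain ⟨D, hD, -⟩ := pkg.principal.exists_divisor f hf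
    exact ⟨D, hD⟩
  regOo := ir_reg_of_pkg pkgOo
  reg0 := ir_reg_of_pkg pkg0

/-- **Invariance of the specialisation map** under an automorphism preserving the two Gauss
rings and acting trivially on their reductions. -/
theorem inertia_r_of [Nonempty ι] (H : NodalRvHyp p G) (hp0 : p ≠ 0) (hA : A.LiesOverPrime p)
    {g goo g0 : ℕ} (pkg : RiemannPackage Qb (FLb N) g)
    (pkgOo : RiemannPackage (kRes A) Foo goo) (pkg0 : RiemannPackage (kRes A) F0 g0)
    (σ : GQ) (hσ : IsRedInvariant G σ) (P : Place Qb (FLb N)) :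
    G.r (galF N σ • P) = G.r P := by
  obtain ⟨f, hf, hfp⟩ := ir_exists_fn pkg P
  exact inertia_r_core H (irAmbient_of_pkg hp0 hA pkg pkgOo pkg0) σ hσ P f hf hfp

/-- **The field `inertia_r` of `NodalGalHyp`** from the four other inertia statements. -/
theorem nodalGal_inertia_r [Nonempty ι] (H : NodalRvHyp p G) (hp0 : p ≠ 0)
    (hA : A.LiesOverPrime p) {g goo g0 : ℕ} (pkg : RiemannPackage Qb (FLb N) g)
    (pkgOo : RiemannPackage (kRes A) Foo goo) (pkg0 : RiemannPackage (kRes A) F0 g0)
    (hoo : ∀ σ ∈ A.inertiaSubgroupIn ℚ, ∀ u ∈ G.Voo, galF N σ • u ∈ G.Voo)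
    (hzero : ∀ σ ∈ A.inertiaSubgroupIn ℚ, ∀ u ∈ G.V0, galF N σ • u ∈ G.V0)
    (hroo : ∀ σ ∈ A.inertiaSubgroupIn ℚ, ∀ (u : G.Voo)
      (h : galF N σ • (u : FLb N) ∈ G.Voo), G.redOo ⟨_, h⟩ = G.redOo u)
    (hrzero : ∀ σ ∈ A.inertiaSubgroupIn ℚ, ∀ (w : G.V0)
      (h : galF N σ • (w : FLb N) ∈ G.V0), G.red0 ⟨_, h⟩ = G.red0 w) :
    ∀ σ ∈ A.inertiaSubgroupIn ℚ, ∀ P, G.r (galF N σ • P) = G.r P := by
  intro σ hσ P
  exact inertia_r_of H hp0 hA pkg pkgOo pkg0 σ
    ⟨hoo σ hσ, hzero σ hσ, hroo σ hσ, hrzero σ hσ⟩ P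

end Fermat.Agent.H85.ORD

end
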