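/-
helper85, P-ORD block B1-GAL (abstract side): **interpolation on a function field with a Riemann
package**: for a finite set `T` of places and a place `Q∞ ∉ T`, every system of values at the
places of `T` is taken by a function with poles only at `Q∞` (of bounded order).
Everything lives in namespace `Fermat.Agent.H85.ORD`.
-/
import Fermat.Agent.H85.ORD.InertiaRFinal
import Fermat.Agent.H21.Ord.NonSpecialBase
import Fermat.Agent.H85.PlaceFacts

set_option autoImplicit false
set_option linter.unusedSectionVars false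

noncomputable section

open AlgebraicCurve

namespace Fermat.Agent.H85.ORD

open Fermat.Agent.H27.ESD Fermat.Agent.H58 Fermat.Agent.H18.ORD

section nonunits

variable {F : Type*} [Field F] (B : ValuationSubring F)

theorem di_nonunits_add {x y : F} (hx : x ∈ B.nonunits) (hy : y ∈ B.nonunits) :
    x + y ∈ B.nonunits := by
  have hxB : x ∈ B := B.nonunits_subset hx
  have hyB : y ∈ B := B.nonunits_subset hy
  have h1 : (⟨x, hxB⟩ : B) ∈ IsLocalRing.maximalIdeal B := by
    rw [IsLocalRing.mem_maximalIdeal]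
    exact (B.coe_mem_nonunits_iff).mp hx
  have h2 : (⟨y, hyB⟩ : B) ∈ IsLocalRing.maximalIdeal B := by
    rw [IsLocalRing.mem_maximalIdeal]
    exact (B.coe_mem_nonunits_iff).mp hy
  have h3 := (IsLocalRing.maximalIdeal B).add_mem h1 h2
  rw [IsLocalRing.mem_maximalIdeal] at h3
  exact (B.coe_mem_nonunits_iff (a := (⟨x, hxB⟩ : B) + ⟨y, hyB⟩)).mpr h3

theorem di_nonunits_mul {a x : F} (ha : a ∈ B) (hx : x ∈ B.nonunits) :
    a * x ∈ B.nonunits := by
  have hxB : x ∈ B := B.nonunits_subset hx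
  have h1 : (⟨x, hxB⟩ : B) ∈ IsLocalRing.maximalIdeal B := by
    rw [IsLocalRing.mem_maximalIdeal]
    exact (B.coe_mem_nonunits_iff).mp hx
  have h3 := (IsLocalRing.maximalIdeal B).mul_mem_left (⟨a, ha⟩ : B) h1
  rw [IsLocalRing.mem_maximalIdeal] at h3
  exact (B.coe_mem_nonunits_iff (a := (⟨a, ha⟩ : B) * ⟨x, hxB⟩)).mpr h3

theorem di_nonunits_zero : (0 : F) ∈ B.nonunits := by
  rw [B.mem_nonunits_iff_or]
  exact Or.inl rfl

theorem di_nonunits_neg {x : F} (hx : x ∈ B.nonunits) : -x ∈ B.nonunits := by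
  have : -x = (-1 : F) * x := by ring
  rw [this]
  exact di_nonunits_mul B (neg_mem B.one_mem) hx

theorem di_nonunits_sub {x y : F} (hx : x ∈ B.nonunits) (hy : y ∈ B.nonunits) :
    x - y ∈ B.nonunits := by
  rw [sub_eq_add_neg]
  exact di_nonunits_add B hx (di_nonunits_neg B hy)

theorem di_nonunits_sum {α : Type*} (s : Finset α) (f : α → F)
    (h : ∀ i ∈ s, f i ∈ B.nonunits) : ∑ i ∈ s, f i ∈ B.nonunits := by
  classical
  induction s using Finset.induction_on with
  | empty =>
    rw [Finset.sum_empty]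
    exact di_nonunits_zero B
  | insert a s ha ih =>
    rw [Finset.sum_insert ha]
    exact di_nonunits_add B (h a (Finset.mem_insert_self a s))
      (ih fun i hi => h i (Finset.mem_insert_of_mem hi))

end nonunits

variable {K F : Type} [Field K] [Field F] [Algebra K F] {g : ℕ}

/-- `1 ∉ 𝔪_v` -/
theorem di_one_notMem (v : Place K F) : (1 : F) ∉ v.toValuationSubring.nonunits := by
  intro h
  rcases v.toValuationSubring.mem_nonunits_iff_or.mp h with h0 | h0
  · exact one_ne_zero h0
  · exact h0 (by rw [inv_one]; exact v.toValuationSubring.one_mem)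

/-- a function with a nonzero value at `v` has order zero at `v` -/
theorem di_ord_eq_zero_of_val (v : Place K F) {x : F} {κ : K} (hκ : κ ≠ 0)
    (h : x - algebraMap K F κ ∈ v.toValuationSubring.nonunits) : x ≠ 0 ∧ v.ord x = 0 := by
  have hx0 : x ≠ 0 := by
    rintro rfl
    rw [zero_sub] at h
    have h1 := di_nonunits_neg _ h
    rw [neg_neg] at h1
    exact hκ (nb_const_eq_zero_of_mem_nonunits v h1)
  refine ⟨hx0, ?_⟩
  have hxm : x ∈ v.toValuationSubring := by
    have h1 : x = (x - algebraMap K F κ) + algebraMap K F κ := by ring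
    rw [h1]
    exact add_mem (v.toValuationSubring.nonunits_subset h) (v.algebraMap_mem' κ)
  have h0 : 0 ≤ v.ord x := Fermat.Agent.H23.ord_nonneg_of_mem v hxm
  by_contra hne
  have hpos : 1 ≤ v.ord x := by omega
  have hxn : x ∈ v.toValuationSubring.nonunits := (nb_mem_nonunits_iff v x).mpr (Or.inr hpos)
  have h2 := di_nonunits_sub _ hxn h
  rw [sub_sub_cancel] at h2
  exact hκ (nb_const_eq_zero_of_mem_nonunits v h2)

/-- the value of a function at a place is unique -/
theorem di_val_unique (v : Place K F) {x : F} {κ κ' : K}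
    (h : x - algebraMap K F κ ∈ v.toValuationSubring.nonunits)
    (h' : x - algebraMap K F κ' ∈ v.toValuationSubring.nonunits) : κ = κ' := by
  have h2 := di_nonunits_sub _ h' h
  have e : x - algebraMap K F κ' - (x - algebraMap K F κ) = algebraMap K F (κ - κ') := by
    rw [map_sub]
    ring
  rw [e] at h2
  exact sub_eq_zero.mp (nb_const_eq_zero_of_mem_nonunits v h2)

/-- **The basic functions**: for `n` large and `t₀ ∈ T` there is `e ∈ L(n Q∞)` with value `1` at
`t₀` and value `0` at the other places of `T`. -/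
theorem di_exists_basic (pkg : RiemannPackage K F g) (T : Finset (Place K F))
    (Qoo : Place K F) (hQ : Qoo ∉ T) :
    ∃ n₁ : ℕ, ∀ n : ℕ, n₁ ≤ n → ∀ t₀ ∈ T,
      ∃ e ∈ riemannRochSpace (Finsupp.single Qoo (n : ℤ)),
        e - 1 ∈ t₀.toValuationSubring.nonunits ∧
        ∀ t ∈ T, t ≠ t₀ → e ∈ t.toValuationSubring.nonunits := by
  classical
  obtain ⟨c, hc⟩ := pkg.eq_of_large
  refine ⟨(c + T.card).toNat, fun n hn t₀ ht₀ => ?_⟩
  have hn' : c + (T.card : ℤ) ≤ (n : ℤ) := by
    have := Int.self_le_toNat (c + T.card)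
    have h2 : ((c + (T.card : ℤ)).toNat : ℤ) ≤ (n : ℤ) := by exact_mod_cast hn
    omega
  set D₀ : Divisor K F := Finsupp.single Qoo (n : ℤ) - rrSum T with hD₀
  have hdeg0 : Divisor.degree D₀ = (n : ℤ) - T.card := by
    rw [hD₀, map_sub, Divisor.degree_single, pkg.deg_one, rr_degree_rrSum pkg.deg_one]
    simp
  have hdeg1 : Divisor.degree (D₀ + Finsupp.single t₀ 1) = (n : ℤ) - T.card + 1 := by
    rw [map_add, hdeg0, Divisor.degree_single, pkg.deg_one]
    simp
  have e0 := hc D₀ (by rw [hdeg0]; omega)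
  have e1 := hc (D₀ + Finsupp.single t₀ 1) (by rw [hdeg1]; omega)
  rw [hdeg0] at e0
  rw [hdeg1] at e1
  have hnle : ¬ riemannRochSpace (D₀ + Finsupp.single t₀ 1) ≤ riemannRochSpace D₀ := by
    intro hle
    have heq : riemannRochSpace (D₀ + Finsupp.single t₀ 1) = riemannRochSpace D₀ :=
      le_antisymm hle (rr_space_mono (rr_le_add_single D₀ t₀))
    rw [heq] at e1
    omega
  obtain ⟨e, he, he'⟩ := SetLike.not_le_iff_exists.mp hnle
  obtain ⟨he0, hord⟩ := rr_ord_eq_of_mem_of_notMem he he'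
  have ht₀Q : t₀ ≠ Qoo := by
    rintro rfl
    exact hQ ht₀
  have hD₀t₀ : D₀ t₀ = -1 := by
    rw [hD₀, Finsupp.sub_apply, Finsupp.single_apply, if_neg (Ne.symm ht₀Q),
      Fermat.Agent.H21.Ord.nsSum_apply_of_mem ht₀]
    norm_num
  rw [hD₀t₀] at hord
  have hord0 : t₀.ord e = 0 := by rw [hord]; norm_num
  -- the value at `t₀`
  obtain ⟨κ, hκ⟩ := Fermat.Agent.H85.exists_const_sub t₀ (pkg.deg_one t₀)
    (g := e) (Or.inr (by rw [hord0]))
  have hκ0 : κ ≠ 0 := by
    rintro rfl
    rw [map_zero, sub_zero] at hκ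
    rcases hκ with h | h
    · exact he0 h
    · rw [hord0] at h
      exact lt_irrefl _ h
  have hκL : algebraMap K F κ⁻¹ ≠ 0 := by
    rw [Ne, map_eq_zero_iff _ (algebraMap K F).injective]
    exact inv_ne_zero hκ0
  refine ⟨κ⁻¹ • e, ?_, ?_, ?_⟩
  · refine Submodule.smul_mem _ _ ?_
    refine rr_space_mono ?_ he
    rw [Finsupp.le_def]
    intro v
    rw [Finsupp.add_apply, hD₀, Finsupp.sub_apply]
    by_cases hv : v = t₀
    · rw [hv, Fermat.Agent.H21.Ord.nsSum_apply_of_mem ht₀, Finsupp.single_eq_same]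
      omega
    · rw [Finsupp.single_eq_of_ne (a := t₀) hv, Fermat.Agent.H21.Ord.nsSum_apply]
      split_ifs <;> omega
  · have e2 : κ⁻¹ • e - 1 = algebraMap K F κ⁻¹ * (e - algebraMap K F κ) := by
      rw [Algebra.smul_def, mul_sub, ← map_mul, inv_mul_cancel₀ hκ0, map_one]
    rw [e2, nb_mem_nonunits_iff]
    rcases hκ with h | h
    · left
      rw [h, sub_self, mul_zero]
    · right
      rw [nb_ord_const_mul _ (inv_ne_zero hκ0)]
      omega
  · intro t ht htt₀
    have h1 := (mem_riemannRochSpace_iff.mp he) t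
    rw [rr_add_single_apply_ne D₀ 1 htt₀, hD₀, Finsupp.sub_apply,
      Fermat.Agent.H21.Ord.nsSum_apply_of_mem ht] at h1
    have htQ : t ≠ Qoo := by
      rintro rfl
      exact hQ ht
    rw [Finsupp.single_apply, if_neg (Ne.symm htQ)] at h1
    rw [Algebra.smul_def, nb_mem_nonunits_iff]
    right
    rw [nb_ord_const_mul _ (inv_ne_zero hκ0)]
    rcases h1 with h1 | h1
    · exact absurd h1 he0
    · omega

/-- **Interpolation**: for `n` large, every system of values on `T` is taken by an element of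
`L(n Q∞)`. -/
theorem di_interp (pkg : RiemannPackage K F g) (T : Finset (Place K F))
    (Qoo : Place K F) (hQ : Qoo ∉ T) :
    ∃ n₁ : ℕ, ∀ n : ℕ, n₁ ≤ n → ∀ c : Place K F → K,
      ∃ x ∈ riemannRochSpace (Finsupp.single Qoo (n : ℤ)),
        ∀ t ∈ T, x - algebraMap K F (c t) ∈ t.toValuationSubring.nonunits := by
  classical
  obtain ⟨n₁, hn₁⟩ := di_exists_basic pkg T Qoo hQ
  refine ⟨n₁, fun n hn c => ?_⟩
  have hex : ∀ t : Place K F, ∃ e ∈ riemannRochSpace (Finsupp.single Qoo (n : ℤ)),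
      t ∈ T → (e - 1 ∈ t.toValuationSubring.nonunits ∧
        ∀ t' ∈ T, t' ≠ t → e ∈ t'.toValuationSubring.nonunits) := by
    intro t
    by_cases ht : t ∈ T
    · obtain ⟨e, he, h1, h2⟩ := hn₁ n hn t ht
      exact ⟨e, he, fun _ => ⟨h1, h2⟩⟩
    · exact ⟨0, Submodule.zero_mem _, fun h => absurd h ht⟩
  choose e heL he using hex
  refine ⟨∑ t ∈ T, c t • e t, ?_, ?_⟩
  · exact Submodule.sum_mem _ fun t _ => Submodule.smul_mem _ _ (heL t)
  · intro t₁ ht₁
    have hsplit : ∑ t ∈ T, c t • e t - algebraMap K F (c t₁)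
        = algebraMap K F (c t₁) * (e t₁ - 1) + ∑ t ∈ T.erase t₁, c t • e t := by
      rw [← Finset.add_sum_erase T _ ht₁, Algebra.smul_def]
      ring
    rw [hsplit]
    refine di_nonunits_add _ ?_ ?_
    · exact di_nonunits_mul _ (t₁.algebraMap_mem' _) (he t₁ ht₁).1
    · refine di_nonunits_sum _ _ _ ?_
      intro t ht
      rw [Finset.mem_erase] at ht
      rw [Algebra.smul_def]
      exact di_nonunits_mul _ (t₁.algebraMap_mem' _) ((he t ht.2).2 t₁ ht₁ (Ne.symm ht.1))

end Fermat.Agent.H85.ORD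

end
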