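/-
helper85, P-ORD block B1-GAL (abstract side): automorphisms acting SEMILINEARLY on the two
reductions of a nodal datum (`IsRedSemi`), the bundled hypotheses `DrAmbient`, their symmetry
`∞ ↔ 0`, and the transport of values and poles.
Everything lives in namespace `Fermat.Agent.H85.ORD`.
-/
import Fermat.Agent.H85.ORD.DecRInterp
import Fermat.Agent.H18.ORD.NodalLiftDefs

set_option autoImplicit false
set_option linter.unusedSectionVars false
set_option linter.unusedVariables false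

noncomputable section

open AlgebraicCurve ModularCurve

namespace Fermat.Agent.H85.ORD

open Fermat.Agent.H72.FF Fermat.Agent.H18.ORD Fermat.Agent.H10.FF Fermat.Agent.H27.ESD

/-! ### Semilinear automorphisms of a function field -/

section semi

variable {K F : Type*} [Field K] [Field F] [Algebra K F]

theorem ds_smul_eq_zero_iff (s : SemilinearAut K F) (x : F) : s • x = 0 ↔ x = 0 := by
  constructor
  · intro h
    have := congrArg (fun z => s⁻¹ • z) h
    simpa using this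
  · rintro rfl
    exact smul_zero s

theorem ds_nonunits_smul (s : SemilinearAut K F) (Q : Place K F) {x : F}
    (h : x ∈ Q.toValuationSubring.nonunits) : s • x ∈ (s • Q).toValuationSubring.nonunits := by
  rw [nb_mem_nonunits_iff] at h ⊢
  rcases h with h | h
  · left
    rw [h, smul_zero]
  · right
    rw [SemilinearAut.ord_smul]
    exact h

/-- transport of a value -/
theorem ds_val_smul (s : SemilinearAut K F) (Q : Place K F) {x : F} {κ : K}
    (h : x - algebraMap K F κ ∈ Q.toValuationSubring.nonunits) :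
    s • x - algebraMap K F (SemilinearAut.baseAut s κ) ∈
      (s • Q).toValuationSubring.nonunits := by
  have h1 := ds_nonunits_smul s Q h
  rw [smul_sub, SemilinearAut.smul_algebraMap] at h1
  exact h1

theorem ds_ord_smul_inv (s : SemilinearAut K F) (Q : Place K F) (x : F) :
    Q.ord (s • x) = (s⁻¹ • Q).ord x := by
  have h3 : (s • (s⁻¹ • Q)).ord (s • x) = (s⁻¹ • Q).ord x := SemilinearAut.ord_smul s _ x
  rw [smul_inv_smul] at h3
  exact h3

/-- the poles of `s • h` are the images of the poles of `h` -/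
theorem ds_pole_smul (s : SemilinearAut K F) (P : Place K F) (h : F)
    (hpole : ∀ P', P' ≠ P → 0 ≤ P'.ord h) : ∀ P', P' ≠ s • P → 0 ≤ P'.ord (s • h) := by
  intro P' hP'
  rw [ds_ord_smul_inv]
  refine hpole _ ?_
  intro hcon
  apply hP'
  rw [← hcon, smul_inv_smul]

end semi

variable {N : ℕ} {A : ValuationSubring Qb} {Foo F0 : Type} [Field Foo] [Field F0]
  [Algebra (kRes A) Foo] [Algebra (kRes A) F0] {ι : Type}

/-! ### Automorphisms acting semilinearly on the reductions -/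

/-- `σ` (and `σ⁻¹`) preserves the two Gauss rings, and acts on their reductions through the
semilinear automorphisms `sOo` of `F_∞` and `s0` of `F_0`. -/
structure IsRedSemi (G : NodalData N A Foo F0 ι) (σ : GQ)
    (sOo : SemilinearAut (kRes A) Foo) (s0 : SemilinearAut (kRes A) F0) : Prop where
  /-- `σ V_∞ ⊆ V_∞` -/
  voo : ∀ u ∈ G.Voo, galF N σ • u ∈ G.Voo
  /-- `σ V_0 ⊆ V_0` -/
  vzero : ∀ u ∈ G.V0, galF N σ • u ∈ G.V0
  /-- `σ⁻¹ V_∞ ⊆ V_∞` -/
  voo_inv : ∀ u ∈ G.Voo, galF N σ⁻¹ • u ∈ G.Voo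
  /-- `σ⁻¹ V_0 ⊆ V_0` -/
  vzero_inv : ∀ u ∈ G.V0, galF N σ⁻¹ • u ∈ G.V0
  /-- `red_∞ (σ u) = sOo (red_∞ u)` -/
  roo : ∀ (u : G.Voo) (h : galF N σ • (u : FLb N) ∈ G.Voo), G.redOo ⟨_, h⟩ = sOo • G.redOo u
  /-- `red_0 (σ w) = s0 (red_0 w)` -/
  rzero : ∀ (w : G.V0) (h : galF N σ • (w : FLb N) ∈ G.V0), G.red0 ⟨_, h⟩ = s0 • G.red0 w

variable {G : NodalData N A Foo F0 ι} {σ : GQ} {sOo : SemilinearAut (kRes A) Foo}
  {s0 : SemilinearAut (kRes A) F0}

theorem IsRedSemi.swap (hσ : IsRedSemi G σ sOo s0) : IsRedSemi (swapData G) σ s0 sOo where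
  voo := hσ.vzero
  vzero := hσ.voo
  voo_inv := hσ.vzero_inv
  vzero_inv := hσ.voo_inv
  roo := hσ.rzero
  rzero := hσ.roo

theorem ds_galF_inv_smul (σ : GQ) (u : FLb N) :
    galF N σ • (galF N σ⁻¹ • u) = u := by
  show arithmeticGalois (modularFunctionFieldFull N) σ •
    (arithmeticGalois (modularFunctionFieldFull N) σ⁻¹ • u) = u
  rw [map_inv, smul_inv_smul]

theorem IsRedSemi.inv (hσ : IsRedSemi G σ sOo s0) : IsRedSemi G σ⁻¹ sOo⁻¹ s0⁻¹ where
  voo := hσ.voo_inv
  vzero := hσ.vzero_inv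
  voo_inv := by
    intro u hu
    rw [inv_inv]
    exact hσ.voo u hu
  vzero_inv := by
    intro u hu
    rw [inv_inv]
    exact hσ.vzero u hu
  roo := by
    intro u h
    have h' : galF N σ • ((⟨galF N σ⁻¹ • (u : FLb N), h⟩ : G.Voo) : FLb N) ∈ G.Voo := by
      show galF N σ • (galF N σ⁻¹ • (u : FLb N)) ∈ G.Voo
      rw [ds_galF_inv_smul]
      exact u.2
    have e := hσ.roo ⟨galF N σ⁻¹ • (u : FLb N), h⟩ h'
    have e2 : (⟨galF N σ • ((⟨galF N σ⁻¹ • (u : FLb N), h⟩ : G.Voo) : FLb N), h'⟩ : G.Voo)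
        = u := by
      apply Subtype.ext
      exact ds_galF_inv_smul σ _
    rw [e2] at e
    rw [e, inv_smul_smul]
  rzero := by
    intro u h
    have h' : galF N σ • ((⟨galF N σ⁻¹ • (u : FLb N), h⟩ : G.V0) : FLb N) ∈ G.V0 := by
      show galF N σ • (galF N σ⁻¹ • (u : FLb N)) ∈ G.V0
      rw [ds_galF_inv_smul]
      exact u.2
    have e := hσ.rzero ⟨galF N σ⁻¹ • (u : FLb N), h⟩ h'
    have e2 : (⟨galF N σ • ((⟨galF N σ⁻¹ • (u : FLb N), h⟩ : G.V0) : FLb N), h'⟩ : G.V0)
        = u := by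
      apply Subtype.ext
      exact ds_galF_inv_smul σ _
    rw [e2] at e
    rw [e, inv_smul_smul]

/-! ### The lifting hypotheses are symmetric -/

theorem isGlued_swap {x : Foo} {y : F0} (h : IsGlued G x y) : IsGlued (swapData G) y x := by
  intro ν
  obtain ⟨κ, h1, h2⟩ := h ν
  exact ⟨κ, h2, h1⟩

theorem isGlued_of_swap {x : Foo} {y : F0} (h : IsGlued (swapData G) y x) : IsGlued G x y := by
  intro ν
  obtain ⟨κ, h1, h2⟩ := h ν
  exact ⟨κ, h2, h1⟩

theorem nodalLift_swap (hL : NodalLift G) : NodalLift (swapData G) where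
  pt_oo := by
    intro Q hQ
    obtain ⟨P, hP, hu⟩ := hL.pt_zero Q hQ
    exact ⟨P, (swap_r_oo_iff G P Q).mpr hP, hu⟩
  pt_zero := by
    intro Q hQ
    obtain ⟨P, hP, hu⟩ := hL.pt_oo Q hQ
    exact ⟨P, (swap_r_zero_iff G P Q).mpr hP, hu⟩
  lift := by
    intro Poo P0 Qoo Q0 hPoo hP0 huoo hu0
    obtain ⟨n₀, hn₀⟩ := hL.lift P0 Poo Q0 Qoo ((swap_r_zero_iff G P0 Q0).mp hP0)
      ((swap_r_oo_iff G Poo Qoo).mp hPoo) hu0 huoo
    refine ⟨n₀, fun n hn x hx y hy hg => ?_⟩
    obtain ⟨u, h, h0, hunr, hmem, e1, e2⟩ := hn₀ n hn y hy x hx (isGlued_of_swap hg)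
    refine ⟨u, h0, h, hunr, ?_, e2, e1⟩
    rw [add_comm]
    exact hmem

/-! ### The bundled hypotheses -/

/-- The hypotheses of the equivariance theorem: the nodal reduction hypotheses, the lifting
hypotheses, Riemann packages on the three curves, finitely many nodes and at least one. -/
structure DrAmbient (p : ℕ) (G : NodalData N A Foo F0 ι) (g goo g0 : ℕ) : Prop where
  rv : NodalRvHyp p G
  amb : IrAmbient p G
  lift : NodalLift G
  pkg : RiemannPackage Qb (FLb N) g
  pkgOo : RiemannPackage (kRes A) Foo goo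
  pkg0 : RiemannPackage (kRes A) F0 g0
  fin : Finite ι
  ne : Nonempty ι
  inf : Infinite (kRes A)

variable {p g goo g0 : ℕ}

theorem DrAmbient.swap (a : DrAmbient p G g goo g0) : DrAmbient p (swapData G) g g0 goo where
  rv := nodalRvHyp_swap a.rv
  amb := a.amb.swap
  lift := nodalLift_swap a.lift
  pkg := a.pkg
  pkgOo := a.pkg0
  pkg0 := a.pkgOo
  fin := a.fin
  ne := a.ne
  inf := a.inf

/-- the bundled hypotheses from the three Riemann packages -/
theorem drAmbient_of_pkg (H : NodalRvHyp p G) (hL : NodalLift G) (hp0 : p ≠ 0)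
    (hA : A.LiesOverPrime p) (pkg : RiemannPackage Qb (FLb N) g)
    (pkgOo : RiemannPackage (kRes A) Foo goo) (pkg0 : RiemannPackage (kRes A) F0 g0)
    [Finite ι] [Nonempty ι] [Infinite (kRes A)] : DrAmbient p G g goo g0 where
  rv := H
  amb := irAmbient_of_pkg hp0 hA pkg pkgOo pkg0
  lift := hL
  pkg := pkg
  pkgOo := pkgOo
  pkg0 := pkg0
  fin := inferInstance
  ne := inferInstance
  inf := inferInstance

/-! ### Points at a place of `C_∞` -/

theorem irAt_of_smooth {X : NPt (Place (kRes A) Foo) (Place (kRes A) F0) ι}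
    {Q : Place (kRes A) Foo} (h : IrAtOo G X Q) (hQ : Q ∉ Set.range G.nOo) : X = NPt.oo Q := by
  rcases h with h | ⟨ν, hν, -⟩
  · exact h
  · exact absurd ⟨ν, hν⟩ hQ

theorem irAt_of_node (H : NodalRvHyp p G) {P : Place Qb (FLb N)} {ν : ι}
    (h : IrAtOo G (G.r P) (G.nOo ν)) : G.r P = NPt.node ν := by
  rcases h with h | ⟨ν', hν', h⟩
  · exact absurd ⟨ν, rfl⟩ (H.r_oo P _ h)
  · rw [h, H.nOo_inj hν']

theorem irAt_oo_eq {P : Place Qb (FLb N)} {Q Q' : Place (kRes A) Foo}
    (hP : G.r P = NPt.oo Q) (h : IrAtOo G (G.r P) Q') : Q' = Q := by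
  rcases h with h | ⟨ν, -, h⟩
  · rw [hP] at h
    injection h with h
    exact h.symm
  · rw [hP] at h
    cases h

theorem irAt_node_eq (H : NodalRvHyp p G) {P : Place Qb (FLb N)} {ν : ι}
    {Q' : Place (kRes A) Foo}
    (hP : G.r P = NPt.node ν) (h : IrAtOo G (G.r P) Q') : Q' = G.nOo ν := by
  rcases h with h | ⟨ν', hν', h⟩
  · rw [hP] at h
    cases h
  · rw [hP] at h
    injection h with h
    rw [h, hν']

end Fermat.Agent.H85.ORD

end
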