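/-
helper85, P-ORD block B1-GAL (abstract side): **the specialisation map of a nodal reduction is
equivariant for every automorphism acting semilinearly on the two reductions** - part 1:
smooth points go to smooth points (`dr_r_smooth`, `dr_r_smooth_zero`), nodes to nodes
(`dr_node`).

Method.  A normalised function with poles only at `P` has a reduction with a pole at the
specialisation of `P` (`Fermat.Agent.H85.ORD.ir_exists_pole`); this locates `r (σ P)` on a
component.  To see that a smooth point `Q` cannot go to a branch of a node `ν'`, lift (LIFT) the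
glued pair `(x, 1)`, `x` with a zero at `Q` and value `1` at the nodes: `σ u` is a unit of both
Gauss rings without pole over `ν'`, with a zero over `ν'` and with `red_0 (σ u) = 1`:
this contradicts the strict slope inequality (M3).
Everything lives in namespace `Fermat.Agent.H85.ORD`.
-/
import Fermat.Agent.H85.ORD.DecRSemi

set_option autoImplicit false
set_option linter.unusedSectionVars false
set_option linter.unusedVariables false

noncomputable section

open AlgebraicCurve ModularCurve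

namespace Fermat.Agent.H85.ORD

open Fermat.Agent.H72.FF Fermat.Agent.H18.ORD Fermat.Agent.H10.FF Fermat.Agent.H27.ESD

theorem dr_mapDomain_nonpos_fibre {α β : Type*} (f : α → β) (D : α →₀ ℤ) (b : β)
    (hD : ∀ a', f a' = b → D a' ≤ 0) : Finsupp.mapDomain f D b ≤ 0 := by
  classical
  rw [Finsupp.mapDomain, Finsupp.sum_apply, Finsupp.sum]
  refine Finset.sum_nonpos fun a' _ => ?_
  rw [Finsupp.single_apply]
  split_ifs with h
  · exact hD a' h
  · exact le_rfl

theorem dr_one_notMem_nonunits {L : Type*} [Field L] (B : ValuationSubring L) :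
    (1 : L) ∉ B.nonunits := by
  intro h
  rcases B.mem_nonunits_iff_or.mp h with h0 | h0
  · exact one_ne_zero h0
  · exact h0 (by rw [inv_one]; exact B.one_mem)

variable {N : ℕ} {A : ValuationSubring Qb} {Foo F0 : Type} [Field Foo] [Field F0]
  [Algebra (kRes A) Foo] [Algebra (kRes A) F0] {ι : Type}
variable {p g goo g0 : ℕ} {G : NodalData N A Foo F0 ι} {σ : GQ}
  {sOo : SemilinearAut (kRes A) Foo} {s0 : SemilinearAut (kRes A) F0}

/-- a normalised function with poles only at `P` -/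
theorem dr_exists_h (a : DrAmbient p G g goo g0) (P : Place Qb (FLb N)) :
    ∃ (h : FLb N) (hV : h ∈ G.Voo) (hV0 : h ∈ G.V0), IrNonconst G h hV hV0 ∧
      ∀ P', P' ≠ P → 0 ≤ P'.ord h := by
  obtain ⟨f, hf, hfp⟩ := ir_exists_fn a.pkg P
  obtain ⟨α, β, hV, hV0, hα, hpair⟩ := a.rv.lattice f hf
  refine ⟨_, hV, hV0, hpair, ?_⟩
  intro P' hP'
  refine Fermat.Agent.H23.ord_nonneg_of_mem P' ?_
  have hfm : f ∈ P'.toValuationSubring :=
    (Fermat.Agent.H23.mem_iff_ord P').mpr (Or.inr (hfp P' hP'))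
  exact add_mem (mul_mem (P'.algebraMap_mem' α) hfm) (P'.algebraMap_mem' β)

/-- **pole transfer**: a pole at `Q` of the reduction on `C_∞` of a function with poles only at
`P` locates `r (σ P)` at `σ̄ Q`. -/
theorem dr_at_of_pole (a : DrAmbient p G g goo g0) (hσ : IsRedSemi G σ sOo s0)
    (P : Place Qb (FLb N)) (h : FLb N) (hV : h ∈ G.Voo) (hV0 : h ∈ G.V0)
    (hr : G.redOo ⟨h, hV⟩ ≠ 0) (hpole : ∀ P', P' ≠ P → 0 ≤ P'.ord h)
    (Q : Place (kRes A) Foo) (hQ : Q.ord (G.redOo ⟨h, hV⟩) < 0) :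
    IrAtOo G (G.r (galF N σ • P)) (sOo • Q) := by
  have hσV := hσ.voo h hV
  have hσV0 := hσ.vzero h hV0
  have e := hσ.roo ⟨h, hV⟩ hσV
  have hpoleσ := ds_pole_smul (galF N σ) P h hpole
  refine ir_at_of_pole a.rv a.amb (galF N σ • P) (galF N σ • h) hσV hσV0 ?_ hpoleσ (sOo • Q) ?_
  · rw [e]
    intro h0
    exact hr ((ds_smul_eq_zero_iff sOo _).mp h0)
  · rw [e, SemilinearAut.ord_smul]
    exact hQ

/-- the specialisation of `σ P`, for `P` over a smooth point `Q` of `C_∞`, is at `σ̄ Q` -/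
theorem dr_at_smooth (a : DrAmbient p G g goo g0) (hσ : IsRedSemi G σ sOo s0)
    (P : Place Qb (FLb N)) (Q : Place (kRes A) Foo) (hP : G.r P = NPt.oo Q) :
    IrAtOo G (G.r (galF N σ • P)) (sOo • Q) := by
  obtain ⟨h, hV, hV0, hpair, hpole⟩ := dr_exists_h a P
  obtain ⟨ν₁⟩ := a.ne
  have hν₁ : G.r P ≠ NPt.node ν₁ := by
    rw [hP]
    intro h
    cases h
  rcases ir_exists_pole a.rv a.amb P h hV hV0 hpole hpair ν₁ hν₁ with
    ⟨hr, Q', hQ'⟩ | ⟨hr, Q', hQ'⟩
  · have h1 := ir_at_of_pole a.rv a.amb P h hV hV0 hr hpole Q' hQ'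
    have e := irAt_oo_eq hP h1
    rw [e] at hQ'
    exact dr_at_of_pole a hσ P h hV hV0 hr hpole Q hQ'
  · exfalso
    have h1 := ir_at_of_pole (nodalRvHyp_swap a.rv) a.amb.swap P h hV0 hV hr hpole Q' hQ'
    rw [swapData_r, irAtOo_swap_iff] at h1
    rcases h1 with h1 | ⟨ν, -, h1⟩
    · rw [hP] at h1
      cases h1
    · rw [hP] at h1
      cases h1

/-- the specialisation of `σ P`, for `P` over a node `ν` (and a second node `ν₁`), is at
`σ̄ (n_∞ ν)` on `C_∞` or at `σ̄ (n_0 ν)` on `C_0` -/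
theorem dr_at_node (a : DrAmbient p G g goo g0) (hσ : IsRedSemi G σ sOo s0)
    (P : Place Qb (FLb N)) (ν : ι) (hP : G.r P = NPt.node ν) (ν₁ : ι) (hν₁ : ν₁ ≠ ν) :
    IrAtOo G (G.r (galF N σ • P)) (sOo • G.nOo ν) ∨
      IrAtOo (swapData G) ((swapData G).r (galF N σ • P)) (s0 • G.n0 ν) := by
  obtain ⟨h, hV, hV0, hpair, hpole⟩ := dr_exists_h a P
  have hν₁' : G.r P ≠ NPt.node ν₁ := by
    rw [hP]
    intro h
    injection h with h
    exact hν₁ h.symm
  rcases ir_exists_pole a.rv a.amb P h hV hV0 hpole hpair ν₁ hν₁' with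
    ⟨hr, Q', hQ'⟩ | ⟨hr, Q', hQ'⟩
  · left
    have h1 := ir_at_of_pole a.rv a.amb P h hV hV0 hr hpole Q' hQ'
    have e := irAt_node_eq a.rv hP h1
    rw [e] at hQ'
    exact dr_at_of_pole a hσ P h hV hV0 hr hpole _ hQ'
  · right
    have h1 := ir_at_of_pole (nodalRvHyp_swap a.rv) a.amb.swap P h hV0 hV hr hpole Q' hQ'
    have hP' : (swapData G).r P = NPt.node ν := (swap_r_node_iff G P ν).mpr hP
    have e := irAt_node_eq (nodalRvHyp_swap a.rv) hP' h1
    rw [e] at hQ'
    exact dr_at_of_pole a.swap hσ.swap P h hV0 hV hr hpole _ hQ'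

/-- the constant `1` lies in every space `L(n Q)`, `n ≥ 0` -/
theorem dr_one_mem_rr {K F : Type*} [Field K] [Field F] [Algebra K F] (Q : Place K F) (n : ℕ) :
    (1 : F) ∈ riemannRochSpace (Finsupp.single Q (n : ℤ)) := by
  classical
  rw [mem_riemannRochSpace_iff]
  intro v
  right
  rw [Place.ord_one, Finsupp.single_apply]
  split_ifs
  · have : (0 : ℤ) ≤ (n : ℤ) := Int.natCast_nonneg n
    omega
  · omega

/-- an element of `L(n P_∞ + n P_0)` has no pole outside `P_∞`, `P_0` -/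
theorem dr_ord_nonneg_of_mem_rr {K F : Type*} [Field K] [Field F] [Algebra K F]
    {Poo P0 : Place K F} {n : ℕ} {u : F}
    (hu : u ∈ riemannRochSpace (Finsupp.single Poo (n : ℤ) + Finsupp.single P0 (n : ℤ)))
    (P : Place K F) (h1 : P ≠ Poo) (h2 : P ≠ P0) : 0 ≤ P.ord u := by
  classical
  rcases (mem_riemannRochSpace_iff.mp hu) P with h | h
  · rw [h, Place.ord_zero]
  · rw [Finsupp.add_apply, Finsupp.single_apply, Finsupp.single_apply, if_neg (Ne.symm h1),
      if_neg (Ne.symm h2)] at h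
    simpa using h

set_option maxHeartbeats 1000000 in
/-- **Smooth points go to smooth points.** -/
theorem dr_smooth (a : DrAmbient p G g goo g0) (hσ : IsRedSemi G σ sOo s0)
    (Q : Place (kRes A) Foo) (hQ : Q ∉ Set.range G.nOo) : sOo • Q ∉ Set.range G.nOo := by
  classical
  haveI := a.fin
  haveI := a.inf
  haveI := a.pkgOo.infinite_places
  haveI := a.pkg0.infinite_places
  rintro ⟨ν', hν'⟩
  -- two smooth points carrying the poles
  obtain ⟨Qoo, hQoo⟩ : ∃ Qoo, Qoo ∉ (Set.range G.nOo ∪ {Q}) :=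
    ((Set.finite_range G.nOo).union (Set.finite_singleton Q)).exists_notMem
  have hQoo1 : Qoo ∉ Set.range G.nOo := fun h => hQoo (Or.inl h)
  have hQoo2 : Qoo ≠ Q := fun h => hQoo (Or.inr h)
  obtain ⟨Q0, hQ0⟩ : ∃ Q0, Q0 ∉ (Set.range G.n0 ∪ {s0⁻¹ • G.n0 ν'}) :=
    ((Set.finite_range G.n0).union (Set.finite_singleton _)).exists_notMem
  have hQ01 : Q0 ∉ Set.range G.n0 := fun h => hQ0 (Or.inl h)
  have hQ02 : G.n0 ν' ≠ s0 • Q0 := by
    intro h
    apply hQ0
    right
    show Q0 = s0⁻¹ • G.n0 ν'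
    rw [h, inv_smul_smul]
  obtain ⟨Poo, hPoo, huPoo⟩ := a.lift.pt_oo Qoo hQoo1
  obtain ⟨P0, hP0, huP0⟩ := a.lift.pt_zero Q0 hQ01
  obtain ⟨n₀, hn₀⟩ := a.lift.lift Poo P0 Qoo Q0 hPoo hP0 huPoo huP0
  -- interpolation
  set T : Finset (Place (kRes A) Foo) := (Set.finite_range G.nOo).toFinset ∪ {Q} with hT
  have hQooT : Qoo ∉ T := by
    rw [hT, Finset.mem_union, Set.Finite.mem_toFinset, Finset.mem_singleton]
    rintro (h | h)
    · exact hQoo1 h
    · exact hQoo2 h
  have hQT : Q ∈ T := by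
    rw [hT, Finset.mem_union, Finset.mem_singleton]
    exact Or.inr rfl
  have hνT : ∀ ν, G.nOo ν ∈ T := by
    intro ν
    rw [hT, Finset.mem_union, Set.Finite.mem_toFinset]
    exact Or.inl ⟨ν, rfl⟩
  obtain ⟨n₁, hn₁⟩ := di_interp a.pkgOo T Qoo hQooT
  obtain ⟨x, hxL, hx⟩ := hn₁ (max n₀ n₁) (le_max_right _ _) (fun t => if t = Q then 0 else 1)
  have hxQ : x ∈ Q.toValuationSubring.nonunits := by
    have := hx Q hQT
    rw [if_pos rfl, map_zero, sub_zero] at this
    exact this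
  have hxν : ∀ ν, x - 1 ∈ (G.nOo ν).toValuationSubring.nonunits := by
    intro ν
    have hne : G.nOo ν ≠ Q := fun h => hQ ⟨ν, h⟩
    have := hx (G.nOo ν) (hνT ν)
    rw [if_neg hne, map_one] at this
    exact this
  have hglue : IsGlued G x 1 := by
    intro ν
    refine ⟨1, ?_, ?_⟩
    · rw [map_one]
      exact hxν ν
    · rw [map_one, sub_self]
      exact di_nonunits_zero _
  obtain ⟨u, hV, hV0, -, huL, hux, huy⟩ :=
    hn₀ (max n₀ n₁) (le_max_left _ _) x hxL 1 (dr_one_mem_rr Q0 _) hglue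
  obtain ⟨ν₀⟩ := a.ne
  have hx0 : x ≠ 0 := by
    rintro rfl
    have h1 := di_nonunits_neg _ (hxν ν₀)
    rw [zero_sub, neg_neg] at h1
    exact di_one_notMem _ h1
  have hur : G.redOo ⟨u, hV⟩ ≠ 0 := by
    rw [hux]
    exact hx0
  have hur0 : G.red0 ⟨u, hV0⟩ ≠ 0 := by
    rw [huy]
    exact one_ne_zero
  have hu0 : u ≠ 0 := ir_ne_zero_of_red hV hur
  -- a zero of `u` over `Q`
  obtain ⟨D, hD⟩ := a.amb.hdiv u hu0
  have hM2 := a.rv.smooth_oo ⟨u, hV⟩ hur D hD Q hQ
  have hordQ : 1 ≤ Q.ord x := ((nb_mem_nonunits_iff Q x).mp hxQ).resolve_left hx0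
  rw [hux] at hM2
  obtain ⟨P'', hP'', hpos⟩ : ∃ P'', G.r P'' = NPt.oo Q ∧ 0 < P''.ord u := by
    by_contra hcon
    push Not at hcon
    have h1 : Finsupp.mapDomain G.r D (NPt.oo Q) ≤ 0 := by
      refine dr_mapDomain_nonpos_fibre G.r D _ ?_
      intro P1 hP1
      rw [hD]
      exact hcon P1 hP1
    omega
  -- the specialisation of `σ P''` is the node `ν'`
  have hat := dr_at_smooth a hσ P'' Q hP''
  rw [← hν'] at hat
  have hrσ : G.r (galF N σ • P'') = NPt.node ν' := irAt_of_node a.rv hat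
  -- the function `σ u`
  have hσV := hσ.voo u hV
  have hσV0 := hσ.vzero u hV0
  have e := hσ.roo ⟨u, hV⟩ hσV
  have e0 := hσ.rzero ⟨u, hV0⟩ hσV0
  have hσr : G.redOo ⟨galF N σ • u, hσV⟩ ≠ 0 := by
    rw [e]
    intro h0
    exact hur ((ds_smul_eq_zero_iff sOo _).mp h0)
  have hσr0 : G.red0 ⟨galF N σ • u, hσV0⟩ ≠ 0 := by
    rw [e0]
    intro h0
    exact hur0 ((ds_smul_eq_zero_iff s0 _).mp h0)
  -- `σ u` has no pole over `ν'`
  have hnp : ∀ P', G.r P' = NPt.node ν' → 0 ≤ P'.ord (galF N σ • u) := by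
    intro P' hP'
    rw [ds_ord_smul_inv]
    have hP'1 : galF N σ • ((galF N σ)⁻¹ • P') = P' := smul_inv_smul _ _
    refine dr_ord_nonneg_of_mem_rr huL _ ?_ ?_
    · intro h1
      have hat1 := dr_at_smooth a hσ Poo Qoo hPoo
      rw [← h1, hP'1, hP'] at hat1
      rcases hat1 with hat1 | ⟨ν, hν, hat1⟩
      · cases hat1
      · injection hat1 with hat1
        rw [← hat1] at hν
        have h2 : sOo • Qoo = sOo • Q := hν.symm.trans hν'
        exact hQoo2 ((MulAction.injective sOo) h2)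
    · intro h2
      have hat2 := dr_at_smooth a.swap hσ.swap P0 Q0 ((swap_r_oo_iff G P0 Q0).mpr hP0)
      rw [← h2, hP'1, (swap_r_node_iff G P' ν').mpr hP'] at hat2
      rcases hat2 with hat2 | ⟨ν, hν, hat2⟩
      · cases hat2
      · injection hat2 with hat2
        rw [← hat2] at hν
        exact hQ02 hν
  -- the strict slope inequality
  have h11 : ((⟨galF N σ • u, hσV0⟩ : G.V0) : FLb N) =
      algebraMap Qb (FLb N) 1 * ((⟨galF N σ • u, hσV⟩ : G.Voo) : FLb N) := by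
    rw [map_one, one_mul]
  have hzero : ∃ P, G.r P = NPt.node ν' ∧ 0 < P.ord (galF N σ • u) := by
    refine ⟨galF N σ • P'', hrσ, ?_⟩
    rw [SemilinearAut.ord_smul]
    exact hpos
  have h2 := (a.rv.node_lt ⟨_, hσV⟩ ⟨_, hσV0⟩ 1 hσr hσr0 h11 ν' hnp hzero).2
  rw [e0, huy, smul_one, Place.ord_one, zpow_zero, one_mul, inv_one] at h2
  exact dr_one_notMem_nonunits A h2

/-- **Branches of nodes go to branches of nodes.** -/
theorem dr_node (a : DrAmbient p G g goo g0) (hσ : IsRedSemi G σ sOo s0)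
    (Q : Place (kRes A) Foo) (hQ : Q ∈ Set.range G.nOo) : sOo • Q ∈ Set.range G.nOo := by
  by_contra hns
  have h1 := dr_smooth a hσ.inv (sOo • Q) hns
  rw [inv_smul_smul] at h1
  exact h1 hQ

/-- **Equivariance at the smooth points of `C_∞`.** -/
theorem dr_r_smooth (a : DrAmbient p G g goo g0) (hσ : IsRedSemi G σ sOo s0)
    (P : Place Qb (FLb N)) (Q : Place (kRes A) Foo) (hP : G.r P = NPt.oo Q) :
    G.r (galF N σ • P) = NPt.oo (sOo • Q) :=
  irAt_of_smooth (dr_at_smooth a hσ P Q hP) (dr_smooth a hσ Q (a.rv.r_oo P Q hP))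

/-- **Equivariance at the smooth points of `C_0`.** -/
theorem dr_r_smooth_zero (a : DrAmbient p G g goo g0) (hσ : IsRedSemi G σ sOo s0)
    (P : Place Qb (FLb N)) (Q : Place (kRes A) F0) (hP : G.r P = NPt.zero Q) :
    G.r (galF N σ • P) = NPt.zero (s0 • Q) := by
  have h1 := dr_r_smooth a.swap hσ.swap P Q ((swap_r_oo_iff G P Q).mpr hP)
  exact (swap_r_oo_iff G _ _).mp h1

end Fermat.Agent.H85.ORD

end
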