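/-
helper85, P-ORD block B1-GAL (abstract side): **the specialisation map of a nodal reduction is
equivariant for every automorphism acting semilinearly on the two reductions** - part 2:
the two branches of a node go to the two branches of ONE node (`dr_branch`), hence
`dec_r_of : r P = r P' → r (σ P) = r (σ P')`, and the field `dec_r` of
`Fermat.Agent.H18.ORD.NodalGalHyp` (`nodalGal_dec_r`), and the whole structure
(`nodalGalHyp_of_semi`).

`dr_branch`: lift (LIFT) a glued pair `(x, y)` with value `0` at the node `ν` and `1` at the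
other nodes; if the branches of `ν` went to different nodes, `σ u + c` would be a unit of both
Gauss rings without zero or pole over a node where its two reductions take different values,
against the gluing property (M4).
Everything lives in namespace `Fermat.Agent.H85.ORD`.
-/
import Fermat.Agent.H85.ORD.DecRCore

set_option autoImplicit false
set_option linter.unusedSectionVars false
set_option linter.unusedVariables false

noncomputable section

open AlgebraicCurve ModularCurve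

namespace Fermat.Agent.H85.ORD

open Fermat.Agent.H72.FF Fermat.Agent.H18.ORD Fermat.Agent.H10.FF Fermat.Agent.H27.ESD

variable {N : ℕ} {A : ValuationSubring Qb} {Foo F0 : Type} [Field Foo] [Field F0]
  [Algebra (kRes A) Foo] [Algebra (kRes A) F0] {ι : Type}
variable {p g goo g0 : ℕ} {G : NodalData N A Foo F0 ι} {σ : GQ}
  {sOo : SemilinearAut (kRes A) Foo} {s0 : SemilinearAut (kRes A) F0}

/-- the poles of `σ u`, `u ∈ L(n P_∞ + n P_0)` with `P_∞`, `P_0` over smooth points, do not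
specialise to a node -/
theorem dr_lift_nopole (a : DrAmbient p G g goo g0) (hσ : IsRedSemi G σ sOo s0)
    {Poo P0 : Place Qb (FLb N)} {Qoo : Place (kRes A) Foo} {Q0 : Place (kRes A) F0}
    (hPoo : G.r Poo = NPt.oo Qoo) (hP0 : G.r P0 = NPt.zero Q0) {n : ℕ} {u : FLb N}
    (huL : u ∈ riemannRochSpace (Finsupp.single Poo (n : ℤ) + Finsupp.single P0 (n : ℤ)))
    (ν : ι) (P' : Place Qb (FLb N)) (hP' : G.r P' = NPt.node ν) :
    0 ≤ P'.ord (galF N σ • u) := by
  rw [ds_ord_smul_inv]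
  have hP'1 : galF N σ • ((galF N σ)⁻¹ • P') = P' := smul_inv_smul _ _
  refine dr_ord_nonneg_of_mem_rr huL _ ?_ ?_
  · intro h1
    have h2 := dr_r_smooth a hσ Poo Qoo hPoo
    rw [← h1, hP'1, hP'] at h2
    cases h2
  · intro h1
    have h2 := dr_r_smooth_zero a hσ P0 Q0 hP0
    rw [← h1, hP'1, hP'] at h2
    cases h2

set_option maxHeartbeats 1000000 in
/-- **The two branches of a node go to the two branches of one node.** -/
theorem dr_branch (a : DrAmbient p G g goo g0) (hσ : IsRedSemi G σ sOo s0) (ν ν₁ ν₂ : ι)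
    (hoo : G.nOo ν₁ = sOo • G.nOo ν) (h0 : G.n0 ν₂ = s0 • G.n0 ν) : ν₁ = ν₂ := by
  classical
  haveI := a.fin
  haveI := a.inf
  haveI := a.pkgOo.infinite_places
  haveI := a.pkg0.infinite_places
  by_contra hne
  -- the node `ν''` whose branch on `C_0` goes to the branch of `ν₁`
  obtain ⟨ν'', hν''⟩ : s0⁻¹ • G.n0 ν₁ ∈ Set.range G.n0 :=
    dr_node a.swap hσ.swap.inv (G.n0 ν₁) ⟨ν₁, rfl⟩
  have hν''1 : s0 • G.n0 ν'' = G.n0 ν₁ := by
    have h1 : G.n0 ν'' = s0⁻¹ • G.n0 ν₁ := hν''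
    rw [h1, smul_inv_smul]
  have hν''ne : ν'' ≠ ν := by
    rintro rfl
    apply hne
    apply a.rv.n0_inj
    rw [h0, hν''1]
  -- two smooth points carrying the poles
  obtain ⟨Qoo, hQoo1⟩ : ∃ Qoo, Qoo ∉ Set.range G.nOo := (Set.finite_range G.nOo).exists_notMem
  obtain ⟨Q0, hQ01⟩ : ∃ Q0, Q0 ∉ Set.range G.n0 := (Set.finite_range G.n0).exists_notMem
  obtain ⟨Poo, hPoo, huPoo⟩ := a.lift.pt_oo Qoo hQoo1
  obtain ⟨P0, hP0, huP0⟩ := a.lift.pt_zero Q0 hQ01
  obtain ⟨n₀, hn₀⟩ := a.lift.lift Poo P0 Qoo Q0 hPoo hP0 huPoo huP0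
  -- interpolation on the two components
  set Too : Finset (Place (kRes A) Foo) := (Set.finite_range G.nOo).toFinset with hToo
  set T0 : Finset (Place (kRes A) F0) := (Set.finite_range G.n0).toFinset with hT0
  have hQooT : Qoo ∉ Too := by
    rw [hToo, Set.Finite.mem_toFinset]
    exact hQoo1
  have hQ0T : Q0 ∉ T0 := by
    rw [hT0, Set.Finite.mem_toFinset]
    exact hQ01
  have hνToo : ∀ ν, G.nOo ν ∈ Too := by
    intro ν
    rw [hToo, Set.Finite.mem_toFinset]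
    exact ⟨ν, rfl⟩
  have hνT0 : ∀ ν, G.n0 ν ∈ T0 := by
    intro ν
    rw [hT0, Set.Finite.mem_toFinset]
    exact ⟨ν, rfl⟩
  obtain ⟨n₁, hn₁⟩ := di_interp a.pkgOo Too Qoo hQooT
  obtain ⟨n₂, hn₂⟩ := di_interp a.pkg0 T0 Q0 hQ0T
  set n : ℕ := max n₀ (max n₁ n₂) with hn
  have hnn₀ : n₀ ≤ n := le_max_left _ _
  have hnn₁ : n₁ ≤ n := le_trans (le_max_left _ _) (le_max_right _ _)
  have hnn₂ : n₂ ≤ n := le_trans (le_max_right _ _) (le_max_right _ _)
  obtain ⟨x, hxL, hx⟩ := hn₁ n hnn₁ (fun t => if t = G.nOo ν then 0 else 1)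
  obtain ⟨y, hyL, hy⟩ := hn₂ n hnn₂ (fun t => if t = G.n0 ν then 0 else 1)
  have hxv : ∀ ν', x - algebraMap (kRes A) Foo (if ν' = ν then 0 else 1) ∈
      (G.nOo ν').toValuationSubring.nonunits := by
    intro ν'
    have h1 := hx (G.nOo ν') (hνToo ν')
    by_cases hν' : ν' = ν
    · rw [if_pos hν']
      rw [if_pos (by rw [hν'])] at h1
      exact h1
    · rw [if_neg hν']
      rw [if_neg (fun h => hν' (a.rv.nOo_inj h))] at h1
      exact h1
  have hyv : ∀ ν', y - algebraMap (kRes A) F0 (if ν' = ν then 0 else 1) ∈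
      (G.n0 ν').toValuationSubring.nonunits := by
    intro ν'
    have h1 := hy (G.n0 ν') (hνT0 ν')
    by_cases hν' : ν' = ν
    · rw [if_pos hν']
      rw [if_pos (by rw [hν'])] at h1
      exact h1
    · rw [if_neg hν']
      rw [if_neg (fun h => hν' (a.rv.n0_inj h))] at h1
      exact h1
  have hglue : IsGlued G x y := fun ν' => ⟨_, hxv ν', hyv ν'⟩
  obtain ⟨u, hV, hV0, -, huL, hux, huy⟩ := hn₀ n hnn₀ x hxL y hyL hglue
  -- the function `σ u`
  have hσV := hσ.voo u hV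
  have hσV0 := hσ.vzero u hV0
  have e := hσ.roo ⟨u, hV⟩ hσV
  have e0 := hσ.rzero ⟨u, hV0⟩ hσV0
  -- the values of its reductions at the branches of `ν₁`
  have hvx : sOo • x ∈ (G.nOo ν₁).toValuationSubring.nonunits := by
    have h1 := hxv ν
    rw [if_pos rfl, map_zero, sub_zero] at h1
    rw [hoo]
    exact ds_nonunits_smul sOo _ h1
  have hvy : s0 • y - 1 ∈ (G.n0 ν₁).toValuationSubring.nonunits := by
    have h1 := hyv ν''
    rw [if_neg hν''ne, map_one] at h1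
    have h2 := ds_nonunits_smul s0 _ h1
    rw [smul_sub, smul_one, hν''1] at h2
    exact h2
  -- a constant `c₀` with residue `κ₀ ∉ {0, -1}`
  obtain ⟨κ₀, hκ₀⟩ : ∃ κ₀ : kRes A, κ₀ ∉ ({0, -1} : Set (kRes A)) :=
    (Set.toFinite ({0, -1} : Set (kRes A))).exists_notMem
  have hκ₀0 : κ₀ ≠ 0 := fun h => hκ₀ (Or.inl h)
  have hκ₀1 : 1 + κ₀ ≠ 0 := by
    intro h
    apply hκ₀
    right
    show κ₀ = -1
    linear_combination h
  obtain ⟨c₀, hc₀⟩ := IsLocalRing.residue_surjective κ₀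
  have hcV : algebraMap Qb (FLb N) (c₀ : Qb) ∈ G.Voo := (a.rv.const_oo _).mpr c₀.2
  have hcV0 : algebraMap Qb (FLb N) (c₀ : Qb) ∈ G.V0 := (a.rv.const_zero _).mpr c₀.2
  have hcr := a.rv.red_const_oo c₀ hcV
  have hcr0 := a.rv.red_const_zero c₀ hcV0
  rw [hc₀] at hcr hcr0
  -- the function `g' = σ u + c₀`
  set g' : FLb N := galF N σ • u + algebraMap Qb (FLb N) (c₀ : Qb) with hg'
  have hgV : g' ∈ G.Voo := add_mem hσV hcV
  have hgV0 : g' ∈ G.V0 := add_mem hσV0 hcV0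
  have hgr : G.redOo ⟨g', hgV⟩ = sOo • x + algebraMap (kRes A) Foo κ₀ := by
    have h1 : (⟨g', hgV⟩ : G.Voo) = ⟨galF N σ • u, hσV⟩ + ⟨_, hcV⟩ := rfl
    rw [h1, map_add, e, hux, hcr]
  have hgr0 : G.red0 ⟨g', hgV0⟩ = s0 • y + algebraMap (kRes A) F0 κ₀ := by
    have h1 : (⟨g', hgV0⟩ : G.V0) = ⟨galF N σ • u, hσV0⟩ + ⟨_, hcV0⟩ := rfl
    rw [h1, map_add, e0, huy, hcr0]
  have hval : G.redOo ⟨g', hgV⟩ - algebraMap (kRes A) Foo κ₀ ∈
      (G.nOo ν₁).toValuationSubring.nonunits := by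
    rw [hgr, add_sub_cancel_right]
    exact hvx
  have hval0 : G.red0 ⟨g', hgV0⟩ - algebraMap (kRes A) F0 (1 + κ₀) ∈
      (G.n0 ν₁).toValuationSubring.nonunits := by
    rw [hgr0, map_add, map_one, add_sub_add_right_eq_sub]
    exact hvy
  obtain ⟨hgr_ne, hord⟩ := di_ord_eq_zero_of_val (G.nOo ν₁) hκ₀0 hval
  obtain ⟨hgr0_ne, hord0⟩ := di_ord_eq_zero_of_val (G.n0 ν₁) hκ₀1 hval0
  -- `g'` has neither pole nor zero over `ν₁`
  have hnp : ∀ P', G.r P' = NPt.node ν₁ → 0 ≤ P'.ord g' := by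
    intro P' hP'
    have h1 := dr_lift_nopole a hσ hPoo hP0 huL ν₁ P' hP'
    refine Fermat.Agent.H23.ord_nonneg_of_mem P' ?_
    exact add_mem ((Fermat.Agent.H23.mem_iff_ord P').mpr (Or.inr h1)) (P'.algebraMap_mem' _)
  have h11 : ((⟨g', hgV0⟩ : G.V0) : FLb N) =
      algebraMap Qb (FLb N) 1 * ((⟨g', hgV⟩ : G.Voo) : FLb N) := by
    rw [map_one, one_mul]
  have hzero : ∀ P', G.r P' = NPt.node ν₁ → P'.ord g' = 0 := by
    intro P' hP'
    by_contra hne0
    have hpos : 0 < P'.ord g' := lt_of_le_of_ne (hnp P' hP') (Ne.symm hne0)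
    have h2 := (a.rv.node_lt ⟨g', hgV⟩ ⟨g', hgV0⟩ 1 hgr_ne hgr0_ne h11 ν₁ hnp
      ⟨P', hP', hpos⟩).1
    rw [hord, zpow_zero, one_mul] at h2
    exact dr_one_notMem_nonunits A h2
  -- gluing
  obtain ⟨κ, -, hk1, hk2⟩ := a.rv.glue g' hgV hgV0 hgr_ne hgr0_ne ν₁ hzero
  have e1 := di_val_unique _ hk1 hval
  have e2 := di_val_unique _ hk2 hval0
  have h10 : (1 : kRes A) = 0 := by
    have h3 : κ₀ = 1 + κ₀ := e1.symm.trans e2
    linear_combination -h3
  exact one_ne_zero h10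

theorem ds_galF_smul_inv_place (σ : GQ) (P : Place Qb (FLb N)) :
    galF N σ⁻¹ • (galF N σ • P) = P := by
  show arithmeticGalois (modularFunctionFieldFull N) σ⁻¹ •
    (arithmeticGalois (modularFunctionFieldFull N) σ • P) = P
  rw [map_inv, inv_smul_smul]

/-- nodes go to nodes -/
theorem dr_r_isNode (a : DrAmbient p G g goo g0) (hσ : IsRedSemi G σ sOo s0)
    (P : Place Qb (FLb N)) (ν : ι) (hP : G.r P = NPt.node ν) :
    ∃ ν', G.r (galF N σ • P) = NPt.node ν' := by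
  cases h : G.r (galF N σ • P) with
  | oo Q =>
    exfalso
    have h1 := dr_r_smooth a hσ.inv (galF N σ • P) Q h
    rw [ds_galF_smul_inv_place, hP] at h1
    cases h1
  | zero Q =>
    exfalso
    have h1 := dr_r_smooth_zero a hσ.inv (galF N σ • P) Q h
    rw [ds_galF_smul_inv_place, hP] at h1
    cases h1
  | node ν' => exact ⟨ν', rfl⟩

/-- the image of a node, through one of its branches -/
theorem dr_r_node (a : DrAmbient p G g goo g0) (hσ : IsRedSemi G σ sOo s0)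
    (P : Place Qb (FLb N)) (ν : ι) (hP : G.r P = NPt.node ν) (ν₁ : ι) (hν₁ : ν₁ ≠ ν) :
    ∃ ν', G.r (galF N σ • P) = NPt.node ν' ∧
      (G.nOo ν' = sOo • G.nOo ν ∨ G.n0 ν' = s0 • G.n0 ν) := by
  obtain ⟨ν', hν'⟩ := dr_r_isNode a hσ P ν hP
  refine ⟨ν', hν', ?_⟩
  rcases dr_at_node a hσ P ν hP ν₁ hν₁ with h | h
  · left
    exact (irAt_node_eq a.rv hν' h).symm
  · right
    have hν'' : (swapData G).r (galF N σ • P) = NPt.node ν' :=
      (swap_r_node_iff G _ ν').mpr hν'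
    exact (irAt_node_eq (nodalRvHyp_swap a.rv) hν'' h).symm

/-- **The decomposition property of the specialisation map**: an automorphism acting
semilinearly on the two reductions permutes the fibres of the specialisation map. -/
theorem dec_r_of (a : DrAmbient p G g goo g0) (hσ : IsRedSemi G σ sOo s0)
    (P P' : Place Qb (FLb N)) (hPP' : G.r P = G.r P') :
    G.r (galF N σ • P) = G.r (galF N σ • P') := by
  cases hP : G.r P with
  | oo Q =>
    rw [dr_r_smooth a hσ P Q hP, dr_r_smooth a hσ P' Q (hPP' ▸ hP)]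
  | zero Q =>
    rw [dr_r_smooth_zero a hσ P Q hP, dr_r_smooth_zero a hσ P' Q (hPP' ▸ hP)]
  | node ν =>
    have hP' : G.r P' = NPt.node ν := hPP' ▸ hP
    by_cases hex : ∃ ν₁ : ι, ν₁ ≠ ν
    · obtain ⟨ν₁, hν₁⟩ := hex
      obtain ⟨μ, hμ, hb⟩ := dr_r_node a hσ P ν hP ν₁ hν₁
      obtain ⟨μ', hμ', hb'⟩ := dr_r_node a hσ P' ν hP' ν₁ hν₁
      rw [hμ, hμ']
      congr 1
      rcases hb with hb | hb
      · rcases hb' with hb' | hb'
        · exact a.rv.nOo_inj (hb.trans hb'.symm)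
        · exact dr_branch a hσ ν μ μ' hb hb'
      · rcases hb' with hb' | hb'
        · exact (dr_branch a hσ ν μ' μ hb' hb).symm
        · exact a.rv.n0_inj (hb.trans hb'.symm)
    · push Not at hex
      obtain ⟨μ, hμ⟩ := dr_r_isNode a hσ P ν hP
      obtain ⟨μ', hμ'⟩ := dr_r_isNode a hσ P' ν hP'
      rw [hμ, hμ', hex μ, hex μ']

/-- `IsRedSemi` for an element of a subgroup preserving the two Gauss rings -/
theorem isRedSemi_of_subgroup (D : Subgroup GQ)
    (hoo : ∀ τ ∈ D, ∀ u ∈ G.Voo, galF N τ • u ∈ G.Voo)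
    (hzero : ∀ τ ∈ D, ∀ u ∈ G.V0, galF N τ • u ∈ G.V0) (hσD : σ ∈ D)
    (roo : ∀ (u : G.Voo) (h : galF N σ • (u : FLb N) ∈ G.Voo), G.redOo ⟨_, h⟩ = sOo • G.redOo u)
    (rzero : ∀ (w : G.V0) (h : galF N σ • (w : FLb N) ∈ G.V0), G.red0 ⟨_, h⟩ = s0 • G.red0 w) :
    IsRedSemi G σ sOo s0 where
  voo := hoo σ hσD
  vzero := hzero σ hσD
  voo_inv := hoo σ⁻¹ (D.inv_mem hσD)
  vzero_inv := hzero σ⁻¹ (D.inv_mem hσD)
  roo := roo
  rzero := rzero

/-- **The field `dec_r` of `NodalGalHyp`**, from the stability of the two Gauss rings under the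
decomposition group and the semilinearity of its action on the reductions. -/
theorem nodalGal_dec_r (a : DrAmbient p G g goo g0)
    (hoo : ∀ σ ∈ A.decompositionSubgroup ℚ, ∀ u ∈ G.Voo, galF N σ • u ∈ G.Voo)
    (hzero : ∀ σ ∈ A.decompositionSubgroup ℚ, ∀ u ∈ G.V0, galF N σ • u ∈ G.V0)
    (hsemi : ∀ σ ∈ A.decompositionSubgroup ℚ,
      ∃ (sOo : SemilinearAut (kRes A) Foo) (s0 : SemilinearAut (kRes A) F0),
        (∀ (u : G.Voo) (h : galF N σ • (u : FLb N) ∈ G.Voo),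
          G.redOo ⟨_, h⟩ = sOo • G.redOo u) ∧
        (∀ (w : G.V0) (h : galF N σ • (w : FLb N) ∈ G.V0),
          G.red0 ⟨_, h⟩ = s0 • G.red0 w)) :
    ∀ σ ∈ A.decompositionSubgroup ℚ, ∀ P P',
      G.r P = G.r P' → G.r (galF N σ • P) = G.r (galF N σ • P') := by
  intro σ hσ P P' hPP'
  obtain ⟨sOo, s0, h1, h2⟩ := hsemi σ hσ
  exact dec_r_of a (isRedSemi_of_subgroup (A.decompositionSubgroup ℚ) hoo hzero hσ h1 h2)
    P P' hPP'

/-- **`NodalGalHyp` from the action on the Gauss rings**: the decomposition group preserves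
`V_∞`, `V_0` and acts semilinearly on the reductions, the inertia group acts trivially on the
reductions. -/
theorem nodalGalHyp_of_semi (a : DrAmbient p G g goo g0)
    (hID : ∀ σ ∈ A.inertiaSubgroupIn ℚ, σ ∈ A.decompositionSubgroup ℚ)
    (hoo : ∀ σ ∈ A.decompositionSubgroup ℚ, ∀ u ∈ G.Voo, galF N σ • u ∈ G.Voo)
    (hzero : ∀ σ ∈ A.decompositionSubgroup ℚ, ∀ u ∈ G.V0, galF N σ • u ∈ G.V0)
    (hsemi : ∀ σ ∈ A.decompositionSubgroup ℚ,
      ∃ (sOo : SemilinearAut (kRes A) Foo) (s0 : SemilinearAut (kRes A) F0),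
        (∀ (u : G.Voo) (h : galF N σ • (u : FLb N) ∈ G.Voo),
          G.redOo ⟨_, h⟩ = sOo • G.redOo u) ∧
        (∀ (w : G.V0) (h : galF N σ • (w : FLb N) ∈ G.V0),
          G.red0 ⟨_, h⟩ = s0 • G.red0 w))
    (hioo : ∀ σ ∈ A.inertiaSubgroupIn ℚ, ∀ (u : G.Voo)
      (h : galF N σ • (u : FLb N) ∈ G.Voo), G.redOo ⟨_, h⟩ = G.redOo u)
    (hizero : ∀ σ ∈ A.inertiaSubgroupIn ℚ, ∀ (w : G.V0)
      (h : galF N σ • (w : FLb N) ∈ G.V0), G.red0 ⟨_, h⟩ = G.red0 w) :
    NodalGalHyp G where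
  dec_oo := hoo
  dec_zero := hzero
  inertia_oo := hioo
  inertia_zero := hizero
  inertia_r := by
    haveI := a.ne
    exact nodalGal_inertia_r a.rv a.amb.hp0 a.amb.hA a.pkg a.pkgOo a.pkg0
      (fun σ hσ => hoo σ (hID σ hσ)) (fun σ hσ => hzero σ (hID σ hσ)) hioo hizero
  dec_r := nodalGal_dec_r a hoo hzero hsemi

end Fermat.Agent.H85.ORD

end
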