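import Fermat.Agent.H85.ORD.UnrNorm
import Fermat.Agent.H18.ORD.NodalDivThm
import Fermat.Agent.H23.ORD.NmPairG3On
import Fermat.Agent.H37.ORD.AnchorNmDefs
import Fermat.Agent.H87.ORD.NodalNC
import Fermat.Agent.H99.ORD.LiftAsm
import Fermat.Agent.H19.ORD.NmAnchorFinal
import Fermat.Agent.H21.Ord.NmNodes
import Fermat.Agent.H20.ORD.NmSoft
import Fermat.Agent.H13.ORD.NmGal
import Fermat.Agent.H92.ORD.NodalAsm
import Fermat.Agent.H23.ORD.NodeCountEq

/-!
# P-ORD, block B1-LIFT : the wiring `[RV] + [ANCHOR] ⟹ [LIFT]` for `nmG`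

All abstract and concrete leaves of the (LIFT) chain are landed; this file plugs them together:

* (UNR-NORM ∞/0)  `Fermat.Agent.H85.ORD.nm_unrNorm_oo / nm_unrNorm_zero`,
* (G3) for pairs  `Fermat.Agent.H23.ORD.nm_pairG3On`,
* (PAIR-SEMI)     `Fermat.Agent.H18.ORD.pairSemiAt_of_norm`,
* [NC]            `Fermat.Agent.H87.ORD.nodalNC` (from `AnchorLift`),
* [LIFT-ASM]      `Fermat.Agent.H99.ORD.nodalLiftAsm`,
* (PT) + anchors  `Fermat.Agent.H19.ORD.nmLift_of_lift`,
* finiteness of the nodes `Fermat.Agent.H21.Ord.nmFinite_of_rv`.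

Results:

* `nm_pairSemiAt`  : `PairSemiAt (nmG htot) P∞ P0` at every pair of inertia-fixed places;
* `nm_nodeCountLe` : `g + 1 ≤ g' + g' + #nodes` from `AnchorLift (nmG htot)`;
* `nm_liftAll`     : `NodalLiftAll (nmG htot)` from `NodalRvHyp` and `AnchorLift`;
* `nmLiftStatement_of_anchor` : `NmRvHypStatement M p → NmAnchorStatement M p → NmLiftStatement M p`;
* `nmGenusEq_of_anchor` : `[TOT] + [RV] + [ANCHOR] ⟹ [GENUS]` (with the semicontinuity half
  `Fermat.Agent.H23.ORD.nm_genus_ge` and the cusp anchors of helper19);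
* `nmBlocks_of_anchor` : `[TOT] + [RV] + [ANCHOR] ⟹ NmBlocks M p`.
-/

set_option autoImplicit false
set_option linter.unusedSectionVars false
set_option linter.style.haveILetI false

noncomputable section

open AlgebraicCurve ModularCurve

namespace Fermat.Agent.H85.ORD

open Fermat.Agent.H72.FF Fermat.Agent.H18.ORD Fermat.Agent.H66 Fermat.Agent.H84.ORD
  Fermat.Agent.H27.ESD Fermat.Agent.H19.ORD

variable {M p : ℕ} [NeZero M] [NeZero p] {A : ValuationSubring Qb}

/-- the Riemann package of the generic fibre -/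
theorem nlw_pkgL (N : ℕ) [NeZero N] :
    RiemannPackage Qb (FLb N) (genusFF Qb (FLb N)) :=
  Fermat.Agent.H58.riemannPackage_of_rrHyp (Fermat.Agent.H58.rrHyp_modularFunctionFieldBar N)

/-- the Riemann package of the components -/
theorem nlw_pkgK (h : NmSetup M p A) :
    RiemannPackage (kRes A) (NmF (M * p) A) (genusFF (kRes A) (NmF (M * p) A)) := by
  have hpM : ¬ p ∣ M := fun hd =>
    h.prime.one_lt.ne' (Nat.Coprime.eq_one_of_dvd h.cop.symm hd)
  obtain ⟨hac, hrr⟩ := Fermat.Agent.H92.ORD.b1_rrHyp_nmF M p h.prime hpM A h.liesOver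
  haveI := hac
  exact Fermat.Agent.H27.ESD.riemannPackage_of_rrHyp hrr

/-- **(PAIR-SEMI) for `nmG`** at every pair of inertia-fixed places. -/
theorem nm_pairSemiAt (h : NmSetup M p A) (htot : NmTot M p h.cop A)
    (H : NodalRvHyp p (nmG htot)) {Poo P0 : Place Qb (FLb (M * p))}
    (hPoo : IsUnrPlace A (M * p) Poo) (hP0 : IsUnrPlace A (M * p) P0) :
    PairSemiAt (nmG htot) Poo P0 :=
  pairSemiAt_of_norm H h.prime h.liesOver
    (fun f hf hunr => nm_unrNorm_oo h htot f hf hunr)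
    (fun f hf hunr => nm_unrNorm_zero h htot f hf hunr)
    (fun V hV => Fermat.Agent.H23.ORD.nm_pairG3On M p (Fermat.Agent.H20.ORD.nmSoft M p) A h htot
      V hV)
    (nlw_pkgL (M * p)) hPoo hP0

/-- **[NC] for `nmG`** from the anchor lift. -/
theorem nm_nodeCountLe (h : NmSetup M p A) (htot : NmTot M p h.cop A)
    (H : NodalRvHyp p (nmG htot)) [Finite (NmNode M p h.cop A)]
    (hAn : AnchorLift (nmG htot)) :
    genusFF Qb (FLb (M * p)) + 1 ≤
      genusFF (kRes A) (NmF (M * p) A) + genusFF (kRes A) (NmF (M * p) A) +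
        Nat.card (NmNode M p h.cop A) :=
  Fermat.Agent.H87.ORD.nodalNC (M * p) p A (NmF (M * p) A) (NmF (M * p) A) (NmNode M p h.cop A)
    (nmG htot) _ _ _ h.prime h.liesOver H inferInstance (nlw_pkgL (M * p)) (nlw_pkgK h)
    (nlw_pkgK h) hAn

/-- **(LIFT) for `nmG`** at every pair of inertia-fixed base places, from `NodalRvHyp` and the
anchor lift. -/
theorem nm_liftAll (h : NmSetup M p A) (htot : NmTot M p h.cop A)
    (H : NodalRvHyp p (nmG htot)) [Finite (NmNode M p h.cop A)]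
    (hAn : AnchorLift (nmG htot)) : NodalLiftAll (nmG htot) := by
  intro Poo P0 Qoo Q0 hPoo hP0 hPooI hP0I
  exact Fermat.Agent.H99.ORD.nodalLiftAsm (M * p) p A (NmF (M * p) A) (NmF (M * p) A)
    (NmNode M p h.cop A) (nmG htot) _ _ _ h.prime h.liesOver H inferInstance
    (nlw_pkgL (M * p)) (nlw_pkgK h) (nlw_pkgK h) (nm_nodeCountLe h htot H hAn)
    Poo P0 Qoo Q0 hPoo hP0 (nm_pairSemiAt h htot H hPooI hP0I)

/-- **[LIFT] for `nmG`** : `NodalLift (nmG htot)` from `NodalRvHyp` and the anchor lift. -/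
theorem nm_lift (h : NmSetup M p A) (htot : NmTot M p h.cop A)
    (H : NodalRvHyp p (nmG htot)) (hAn : AnchorLift (nmG htot)) : NodalLift (nmG htot) := by
  haveI : Finite (NmNode M p h.cop A) :=
    Fermat.Agent.H21.Ord.finite_nodes_of_principal H h.prime h.liesOver
      (nlw_pkgL (M * p)).principal (nlw_pkgK h).principal (nlw_pkgK h).principal
  exact nmLift_of_lift h htot H (Fermat.Agent.H13.ORD.nmGalHyp_uncond M p A h htot)
    (nlw_pkgL (M * p)).principal (nlw_pkgK h) (nm_liftAll h htot H hAn)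

/-- **B1-LIFT, statement form** : `[RV] + [ANCHOR] ⟹ [LIFT]`. -/
theorem nmLiftStatement_of_anchor (hR : NmRvHypStatement M p)
    (hAn : Fermat.Agent.H37.ORD.NmAnchorStatement M p) : NmLiftStatement M p :=
  fun A h htot => nm_lift h htot (hR A h htot) (hAn A h htot)

/-- **[GENUS] ≤ half from the anchor** : `g + 1 ≤ 2 g' + #nodes` for `nmG`, statement form. -/
theorem nm_genusLe_of_anchor (hT : NmTotStatement M p) (hR : NmRvHypStatement M p)
    (hAn : Fermat.Agent.H37.ORD.NmAnchorStatement M p)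
    (A : ValuationSubring Qb) (h : NmSetup M p A) :
    genusFF Qb (FLb (M * p)) + 1 ≤
      genusFF (kRes A) (NmF (M * p) A) + genusFF (kRes A) (NmF (M * p) A) +
        Nat.card (NmNode M p h.cop A) := by
  haveI : Finite (NmNode M p h.cop A) :=
    Fermat.Agent.H21.Ord.nmFinite_of_rv hR A h (hT A h)
  exact nm_nodeCountLe h (hT A h) (hR A h (hT A h)) (hAn A h (hT A h))

/-- **[GENUS] from the anchor** : `g + 1 = 2 g' + #nodes` for `nmG`. -/
theorem nmGenusEq_of_anchor (hT : NmTotStatement M p) (hR : NmRvHypStatement M p)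
    (hAn : Fermat.Agent.H37.ORD.NmAnchorStatement M p) :
    Fermat.Agent.H92.ORD.NmGenusEqStatement M p := by
  intro A h
  haveI : Finite (NmNode M p h.cop A) :=
    Fermat.Agent.H21.Ord.nmFinite_of_rv hR A h (hT A h)
  obtain ⟨Poo, P0, Qoo, Q0, hPoo, hP0, -, -⟩ :=
    nmAnchor (hcop := h.cop) h.prime h.liesOver (hT A h)
  have hge := Fermat.Agent.H23.ORD.nm_genus_ge M p (Fermat.Agent.H20.ORD.nmSoft M p) A h (hT A h)
    (hR A h (hT A h)) (nlw_pkgL (M * p)) (nlw_pkgK h) (nlw_pkgK h) hPoo hP0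
  exact le_antisymm (nm_genusLe_of_anchor hT hR hAn A h) hge

/-- **B1-ASM from three blocks** : `[TOT] + [RV] + [ANCHOR] ⟹ NmBlocks M p`. -/
theorem nmBlocks_of_anchor (hT : NmTotStatement M p) (hR : NmRvHypStatement M p)
    (hAn : Fermat.Agent.H37.ORD.NmAnchorStatement M p) :
    Fermat.Agent.H92.ORD.NmBlocks M p where
  tot := hT
  rv := hR
  gal := Fermat.Agent.H13.ORD.nmGalHyp_uncond M p
  lift := nmLiftStatement_of_anchor hR hAn
  nodes := Fermat.Agent.H21.Ord.nmNodes_of_genusEq (nmGenusEq_of_anchor hT hR hAn)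
  genus := nmGenusEq_of_anchor hT hR hAn

end Fermat.Agent.H85.ORD

end
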